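import Fermat.Agent.CFT.Unram.Norm
import Fermat.Agent.CFT.Local.Krasner
import Fermat.Agent.CFT.LC.Levels

/-!
# Unramified classes in degree 2 die
-/

set_option autoImplicit false

open Filter Topology

namespace Fermat.Agent.CFT.Unram

open Fermat.Agent.CFT.Local Fermat.Agent.CFT.LC

section Abstract

variable {G : Type*} [Group G] {k : Type*} [CommRing k] {V : Type*} [AddCommGroup V] [Module k V]

/-- the auxiliary sequence `b 0 = z(1,1)`, `b (k+1) = b k - z (φ^k, φ)`. -/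
def bseq (z : G × G → V) (φ : G) : ℕ → V
  | 0 => z (1, 1)
  | (j + 1) => bseq z φ j - z (φ ^ j, φ)

/-- **Cyclic 2-cocycles die after a `p`-fold inflation.** -/
theorem exists_coboundary (ρ : Representation k G V) {N N' : Subgroup G} (hN' : N' ≤ N)
    (hN'n : N'.Normal) {n p : ℕ} (hp : ∀ v : V, p • v = 0) {φ : G}
    (h1 : ∀ τ, ∃ j : ℕ, (φ ^ j)⁻¹ * τ ∈ N') (h2 : ∀ j, φ ^ j ∈ N' → n * p ∣ j)
    (h3 : φ ^ n ∈ N) (hρ : ∀ s ∈ N, ρ s = 1) {z : G × G → V}
    (hz : ∀ g h j, z (g * h, j) + z (g, h) = ρ g (z (h, j)) + z (g, h * j))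
    (hzN : ∀ g h, ∀ s ∈ N, ∀ t ∈ N, z (g * s, h * t) = z (g, h)) :
    ∃ β : G → V, (∀ g, ∀ s ∈ N', β (g * s) = β g) ∧
      ∀ g h, ρ g (β h) - β (g * h) + β g = z (g, h) := by
  classical
  set b := bseq z φ with hb
  have hb0 : b 0 = z (1, 1) := rfl
  have hbs : ∀ j, b (j + 1) = b j - z (φ ^ j, φ) := fun j => rfl
  -- Claim A
  have hA : ∀ i j, z (φ ^ i, φ ^ j) = ρ (φ ^ i) (b j) - b (i + j) + b i := by
    intro i j
    induction j with
    | zero =>
      have h := hz (φ ^ i) 1 1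
      rw [mul_one, mul_one] at h
      rw [pow_zero, add_zero, sub_add_cancel, hb0]
      exact add_right_cancel h
    | succ j ih =>
      have h := hz (φ ^ i) (φ ^ j) φ
      rw [← pow_add, ← pow_succ, ih] at h
      have e1 : z (φ ^ (i + j), φ) = b (i + j) - b (i + (j + 1)) := by
        rw [← add_assoc, hbs]; abel
      have e2 : z (φ ^ j, φ) = b j - b (j + 1) := by rw [hbs]; abel
      rw [e1, e2, map_sub] at h
      have h' : z (φ ^ i, φ ^ (j + 1)) =
        (b (i + j) - b (i + (j + 1)) + ((ρ (φ ^ i)) (b j) - b (i + j) + b i)) -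
          ((ρ (φ ^ i)) (b j) - (ρ (φ ^ i)) (b (j + 1))) := by rw [h]; abel
      rw [h']; abel
  -- periodicity
  have hper1 : ∀ j, b (j + 1) - b (j + 1 + n) = b j - b (j + n) := by
    intro j
    have e1 : j + 1 + n = (j + n) + 1 := by ring
    rw [e1, hbs, hbs]
    have e2 : z (φ ^ (j + n), φ) = z (φ ^ j, φ) := by
      have := hzN (φ ^ j) φ (φ ^ n) h3 1 (one_mem N)
      rw [mul_one, ← pow_add] at this
      exact this
    rw [e2]; abel
  have hper2 : ∀ j, b j - b (j + n) = b 0 - b (0 + n) := by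
    intro j
    induction j with
    | zero => rfl
    | succ j ih => rw [hper1, ih]
  set s := b 0 - b (0 + n) with hs
  have hper3 : ∀ m j, b (j + n * m) = b j - m • s := by
    intro m
    induction m with
    | zero => intro j; simp
    | succ m ih =>
      intro j
      have e1 : j + n * (m + 1) = (j + n * m) + n := by ring
      have e2 := hper2 (j + n * m)
      have e3 : b (j + n * m + n) = b (j + n * m) - s := by rw [← e2]; abel
      rw [e1, e3, ih, succ_nsmul]; abel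
  have hper4 : ∀ m j, b (j + n * p * m) = b j := by
    intro m j
    have h := hper3 (p * m) j
    rw [← mul_assoc] at h
    rw [h, mul_comm p m, mul_nsmul, hp, sub_zero]
  choose J hJ using h1
  -- well-definedness
  have hwd' : ∀ (g : G) (i j : ℕ), i ≤ j → (φ ^ i)⁻¹ * g ∈ N' → (φ ^ j)⁻¹ * g ∈ N' →
      b i = b j := by
    intro g i j hij hi hj
    have h4 : φ ^ (j - i) ∈ N' := by
      have h5 := N'.mul_mem hi (N'.inv_mem hj)
      have h6 : (φ ^ i)⁻¹ * g * ((φ ^ j)⁻¹ * g)⁻¹ = φ ^ (j - i) := by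
        have : φ ^ j = φ ^ i * φ ^ (j - i) := by rw [← pow_add]; congr 1; omega
        rw [this]; group
      rwa [h6] at h5
    obtain ⟨m, hm⟩ := h2 _ h4
    have : j = i + n * p * m := by omega
    rw [this, hper4]
  have hwd : ∀ (g : G) (i j : ℕ), (φ ^ i)⁻¹ * g ∈ N' → (φ ^ j)⁻¹ * g ∈ N' → b i = b j := by
    intro g i j hi hj
    rcases le_total i j with h | h
    · exact hwd' g i j h hi hj
    · exact (hwd' g j i h hj hi).symm
  refine ⟨fun g => b (J g), fun g t ht => ?_, fun g h => ?_⟩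
  · refine hwd g _ _ ?_ (hJ g)
    have h4 := N'.mul_mem (hJ (g * t)) (N'.inv_mem ht)
    have h5 : (φ ^ J (g * t))⁻¹ * (g * t) * t⁻¹ = (φ ^ J (g * t))⁻¹ * g := by group
    rwa [h5] at h4
  · have hg : g = φ ^ J g * ((φ ^ J g)⁻¹ * g) := by group
    have hh : h = φ ^ J h * ((φ ^ J h)⁻¹ * h) := by group
    have e1 : z (g, h) = z (φ ^ J g, φ ^ J h) := by
      conv_lhs => rw [hg, hh]
      exact hzN _ _ _ (hN' (hJ g)) _ (hN' (hJ h))
    have e2 : ρ g (b (J h)) = ρ (φ ^ J g) (b (J h)) := by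
      conv_lhs => rw [hg]
      rw [map_mul, hρ _ (hN' (hJ g)), mul_one]
    have e3 : b (J (g * h)) = b (J g + J h) := by
      refine hwd (g * h) _ _ (hJ _) ?_
      have h5 : (φ ^ (J g + J h))⁻¹ * (g * h) =
          ((φ ^ J h)⁻¹ * ((φ ^ J g)⁻¹ * g) * ((φ ^ J h)⁻¹)⁻¹) * ((φ ^ J h)⁻¹ * h) := by
        rw [pow_add]; group
      rw [h5]
      exact N'.mul_mem (hN'n.conj_mem _ (hJ g) _) (hJ h)
    show ρ g (b (J h)) - b (J (g * h)) + b (J g) = z (g, h)
    rw [e1, hA, e2, e3]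

end Abstract

section Local

variable {q : ℕ} [Fact q.Prime]

/-- Open for the level structure of the frozen statements iff open for the Krull topology. -/
theorem isOpen_lvlOver_iff {U : Subgroup (PadicAlgCl q ≃ₐ[ℚ_[q]] PadicAlgCl q)} :
    (lvlOver (localGaloisToGlobal q)).IsOpen U ↔
      IsOpen (U : Set (PadicAlgCl q ≃ₐ[ℚ_[q]] PadicAlgCl q)) := by
  constructor
  · rintro ⟨_, ⟨_, ⟨F, hF, hF', rfl⟩, rfl⟩, h⟩
    have : FiniteDimensional ℚ F := hF
    exact Subgroup.isOpen_mono h (isOpen_comap_localGaloisToGlobal q F)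
  · intro h
    obtain ⟨F, hF1, hF2, hF3⟩ := exists_comap_localGaloisToGlobal_le q h
    exact ⟨_, ⟨_, ⟨F, hF1, hF2.to_normal, rfl⟩, rfl⟩, hF3⟩

/-- **(B5c)** Let `U` be open in the Galois group of `ℚ_q`, `N ≤ U` an open subgroup containing
the inertia subgroup of `U`. Every 2-cocycle of `U` which factors through `N` with values in a
representation killed by `p`, on which `N` acts trivially, is a coboundary (of a cochain which
factors through an unramified extension). -/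
theorem exists_unram_coboundary {k : Type*} [CommRing k] {V : Type*} [AddCommGroup V] [Module k V]
    {U N : Subgroup (PadicAlgCl q ≃ₐ[ℚ_[q]] PadicAlgCl q)}
    (hU : IsOpen (U : Set (PadicAlgCl q ≃ₐ[ℚ_[q]] PadicAlgCl q)))
    (hN : IsOpen (N : Set (PadicAlgCl q ≃ₐ[ℚ_[q]] PadicAlgCl q)))
    (hI : U ⊓ inertiaLoc q ≤ N) {p : ℕ} (hp0 : p ≠ 0) (hp : ∀ v : V, p • v = 0)
    (ρ : Representation k U V) (hρ : ∀ s : U, (s : PadicAlgCl q ≃ₐ[ℚ_[q]] PadicAlgCl q) ∈ N →
      ρ s = 1) {z : U × U → V}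
    (hz : ∀ g h j, z (g * h, j) + z (g, h) = ρ g (z (h, j)) + z (g, h * j))
    (hzN : ∀ g h s t : U, (s : PadicAlgCl q ≃ₐ[ℚ_[q]] PadicAlgCl q) ∈ N →
      (t : PadicAlgCl q ≃ₐ[ℚ_[q]] PadicAlgCl q) ∈ N → z (g * s, h * t) = z (g, h)) :
    ∃ N' : Subgroup (PadicAlgCl q ≃ₐ[ℚ_[q]] PadicAlgCl q),
      IsOpen (N' : Set (PadicAlgCl q ≃ₐ[ℚ_[q]] PadicAlgCl q)) ∧ N' ≤ U ⊓ N ∧
      U ⊓ inertiaLoc q ≤ N' ∧
      ∃ β : U → V, (∀ g s : U, (s : PadicAlgCl q ≃ₐ[ℚ_[q]] PadicAlgCl q) ∈ N' →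
        β (g * s) = β g) ∧ ∀ g h, ρ g (β h) - β (g * h) + β g = z (g, h) := by
  obtain ⟨K, hK1, rfl⟩ := exists_field_of_isOpen q hU
  obtain ⟨n, hn, hle⟩ := exists_unrSub_le K hN hI
  have hnp : n * p ≠ 0 := mul_ne_zero hn hp0
  obtain ⟨φ, hφ⟩ := exists_isFrob K hnp
  have hle2 : unrSub K (n * p) ≤ unrSub K n := unrSub_le_of_dvd K (Dvd.intro _ rfl)
  refine ⟨unrSub K (n * p), isOpen_unrSub K hnp, le_inf (unrSub_le K _) (hle2.trans hle),
    inf_inertiaLoc_le_unrSub K hnp, ?_⟩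
  let φ' : K.fixingSubgroup := ⟨φ, hφ.1⟩
  obtain ⟨β, hβ1, hβ2⟩ := exists_coboundary ρ (N := (unrSub K n).subgroupOf K.fixingSubgroup)
    (N' := (unrSub K (n * p)).subgroupOf K.fixingSubgroup)
    (fun x hx => hle2 hx) (unrSub_subgroupOf_normal K _) (n := n) (p := p) hp (φ := φ')
    (fun τ => by
      obtain ⟨j, _, hj⟩ := hφ.exists_pow hnp τ.2
      exact ⟨j, hj⟩)
    (fun j hj => (hφ.pow_mem_iff hnp j).mp hj)
    (((hφ.of_dvd (Dvd.intro _ rfl)).pow_mem_iff hn n).mpr dvd_rfl)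
    (fun s hs => hρ s (hle hs))
    hz (fun g h s hs t ht => hzN g h s t (hle hs) (hle ht))
  exact ⟨β, fun g s hs => hβ1 g s hs, hβ2⟩

end Local

end Fermat.Agent.CFT.Unram
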