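import Fermat.Agent.CFT.Unram.Classes
import Fermat.Agent.CFT.LC.Criterion

/-!
# Local inertia and global inertia; global classes unramified at `q` are locally trivial at `q`
-/

set_option autoImplicit false

open Filter Topology

namespace Fermat.Agent.CFT.Unram

open Fermat.Agent.CFT.Local Fermat.Agent.CFT.LC

local notation "ℚbar" => AlgebraicClosure ℚ
local notation "ΓQ" => (AlgebraicClosure ℚ ≃ₐ[ℚ] AlgebraicClosure ℚ)

variable (q : ℕ) [Fact q.Prime]

theorem mem_nonunits_padicPlace {x : ℚbar} :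
    x ∈ (padicPlace q).nonunits ↔ ‖padicEmbedding q x‖ < 1 := by
  rw [ValuationSubring.mem_nonunits_iff_or]
  constructor
  · rintro (rfl | h)
    · rw [map_zero, norm_zero]; exact one_pos
    · rw [mem_padicPlace_iff, map_inv₀, nnnorm_inv, not_le] at h
      have hx : ‖padicEmbedding q x‖₊ < 1 := by
        by_contra hcon
        exact absurd h (not_lt.mpr (inv_le_one_of_one_le₀ (not_lt.mp hcon)))
      exact_mod_cast hx
  · intro h
    rcases eq_or_ne x 0 with rfl | hx0
    · exact Or.inl rfl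
    · right
      have h0 : 0 < ‖padicEmbedding q x‖₊ := by
        rw [nnnorm_pos]
        exact (map_ne_zero _).mpr hx0
      rw [mem_padicPlace_iff, map_inv₀, nnnorm_inv, not_le]
      exact (one_lt_inv₀ h0).mpr (by exact_mod_cast h)

theorem padicPlace_liesOverPrime : (padicPlace q).LiesOverPrime q := by
  rw [ValuationSubring.LiesOverPrime, mem_nonunits_padicPlace, map_natCast]
  exact norm_q_lt_one q

variable {q}

/-- Local inertia maps to the global inertia group of the place `padicPlace q`. -/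
theorem loc_mem_inertia {τ : PadicAlgCl q ≃ₐ[ℚ_[q]] PadicAlgCl q} (hτ : τ ∈ inertiaLoc q) :
    localGaloisToGlobal q τ ∈ (padicPlace q).inertiaSubgroupIn ℚ := by
  have hdec : localGaloisToGlobal q τ ∈ (padicPlace q).decompositionSubgroup ℚ :=
    localGaloisToGlobal_mem_decompositionSubgroup q τ
  refine ⟨⟨_, hdec⟩, ?_, rfl⟩
  change MulSemiringAction.toRingAut ((padicPlace q).decompositionSubgroup ℚ)
    (IsLocalRing.ResidueField (padicPlace q)) ⟨_, hdec⟩ = 1
  ext x
  change (⟨_, hdec⟩ : (padicPlace q).decompositionSubgroup ℚ) • x = x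
  obtain ⟨y, rfl⟩ := IsLocalRing.residue_surjective x
  rw [← IsLocalRing.ResidueField.residue_smul, ← sub_eq_zero, ← map_sub,
    IsLocalRing.residue_eq_zero_iff, ← ValuationSubring.coe_mem_nonunits_iff,
    mem_nonunits_padicPlace]
  have h1 : (((⟨_, hdec⟩ : (padicPlace q).decompositionSubgroup ℚ) • y - y : padicPlace q) : ℚbar) =
      localGaloisToGlobal q τ (y : ℚbar) - y := rfl
  rw [h1, map_sub, padicEmbedding_localGaloisToGlobal]
  apply hτ
  have := y.2
  rw [mem_padicPlace_iff] at this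
  exact this

theorem inertiaLoc_le_comap {S : Finset Nat.Primes} {U : Subgroup ΓQ} (hU : (unram S).IsOpen U)
    (q : Nat.Primes) [Fact (q : ℕ).Prime] (hq : q ∉ S) :
    inertiaLoc (q : ℕ) ≤ U.comap (localGaloisToGlobal (q : ℕ)) := by
  intro τ hτ
  obtain ⟨_, h⟩ := isOpen_unram_iff_inertia.mp hU
  exact h q hq _ (padicPlace_liesOverPrime q) (loc_mem_inertia hτ)

theorem isOpen_comap_loc {U : Subgroup ΓQ} (hU : (krull ℚ ℚbar).IsOpen U) :
    IsOpen ((U.comap (localGaloisToGlobal q) :
      Subgroup (PadicAlgCl q ≃ₐ[ℚ_[q]] PadicAlgCl q)) :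
      Set (PadicAlgCl q ≃ₐ[ℚ_[q]] PadicAlgCl q)) := by
  obtain ⟨F, hF, h⟩ := isOpen_krull_iff.mp hU
  have : FiniteDimensional ℚ F := hF
  exact Subgroup.isOpen_mono (Subgroup.comap_mono h) (isOpen_comap_localGaloisToGlobal q F)

end Fermat.Agent.CFT.Unram
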