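import Fermat.Agent.CFT.Unram.Global

/-!
# Unramified characters
-/

set_option autoImplicit false

open Filter Topology

namespace Fermat.Agent.CFT.Unram

open Fermat.Agent.CFT.Local Fermat.Agent.CFT.LC

/-- A cyclic quotient generated by `φ` gives a homomorphism to `ZMod n` sending `φ` to `1`. -/
theorem exists_hom_zmod {G : Type*} [Group G] {N : Subgroup G} (hN : N.Normal) {n : ℕ} {φ : G}
    (h1 : ∀ τ, ∃ j : ℕ, (φ ^ j)⁻¹ * τ ∈ N) (h2 : ∀ j, φ ^ j ∈ N ↔ n ∣ j) :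
    ∃ θ : G →* Multiplicative (ZMod n), θ φ = Multiplicative.ofAdd 1 ∧ θ.ker = N := by
  choose J hJ using h1
  have hwd' : ∀ (g : G) (i j : ℕ), i ≤ j → (φ ^ i)⁻¹ * g ∈ N → (φ ^ j)⁻¹ * g ∈ N →
      (i : ZMod n) = j := by
    intro g i j hij hi hj
    have h4 : φ ^ (j - i) ∈ N := by
      have h5 := N.mul_mem hi (N.inv_mem hj)
      have h6 : (φ ^ i)⁻¹ * g * ((φ ^ j)⁻¹ * g)⁻¹ = φ ^ (j - i) := by
        have : φ ^ j = φ ^ i * φ ^ (j - i) := by rw [← pow_add]; congr 1; omega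
        rw [this]; group
      rwa [h6] at h5
    have h7 := (h2 _).mp h4
    exact (ZMod.natCast_eq_natCast_iff' i j n).mpr
      ((Nat.modEq_iff_dvd' hij).mpr h7)
  have hwd : ∀ (g : G) (i j : ℕ), (φ ^ i)⁻¹ * g ∈ N → (φ ^ j)⁻¹ * g ∈ N →
      (i : ZMod n) = j := by
    intro g i j hi hj
    rcases le_total i j with h | h
    · exact hwd' g i j h hi hj
    · exact (hwd' g j i h hj hi).symm
  let θ : G →* Multiplicative (ZMod n) :=
    MonoidHom.mk' (fun g => Multiplicative.ofAdd (J g : ZMod n)) (by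
      intro g h
      rw [← ofAdd_add]
      congr 1
      rw [← Nat.cast_add]
      refine hwd (g * h) _ _ (hJ _) ?_
      have h5 : (φ ^ (J g + J h))⁻¹ * (g * h) =
          ((φ ^ J h)⁻¹ * ((φ ^ J g)⁻¹ * g) * ((φ ^ J h)⁻¹)⁻¹) * ((φ ^ J h)⁻¹ * h) := by
        rw [pow_add]; group
      rw [h5]
      exact N.mul_mem (hN.conj_mem _ (hJ g) _) (hJ h))
  have hθ : ∀ g, θ g = Multiplicative.ofAdd (J g : ZMod n) := fun g => rfl
  refine ⟨θ, ?_, ?_⟩
  · rw [hθ]
    congr 1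
    rw [← Nat.cast_one]
    exact hwd φ _ _ (hJ φ) (by rw [pow_one, inv_mul_cancel]; exact N.one_mem)
  · ext g
    rw [MonoidHom.mem_ker, hθ, ofAdd_eq_one, ZMod.natCast_eq_zero_iff]
    constructor
    · intro h
      have h3 := N.mul_mem ((h2 _).mpr h) (hJ g)
      rwa [mul_inv_cancel_left] at h3
    · intro h
      rw [← h2]
      have h3 := N.mul_mem h (N.inv_mem (hJ g))
      have h4 : g * ((φ ^ J g)⁻¹ * g)⁻¹ = φ ^ J g := by group
      rwa [h4] at h3

variable {q : ℕ} [Fact q.Prime]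

/-- The unramified character of order `n` of the Galois group of `K`. -/
theorem exists_unr_hom (K : IntermediateField ℚ_[q] (PadicAlgCl q)) [FiniteDimensional ℚ_[q] K]
    {n : ℕ} (hn : n ≠ 0) {φ : PadicAlgCl q ≃ₐ[ℚ_[q]] PadicAlgCl q} (hφ : IsFrob K n φ) :
    ∃ θ : K.fixingSubgroup →* Multiplicative (ZMod n),
      θ ⟨φ, hφ.1⟩ = Multiplicative.ofAdd 1 ∧ θ.ker = (unrSub K n).subgroupOf K.fixingSubgroup := by
  refine exists_hom_zmod (unrSub_subgroupOf_normal K n) (fun τ => ?_) (fun j => ?_)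
  · obtain ⟨j, _, hj⟩ := hφ.exists_pow hn τ.2
    exact ⟨j, hj⟩
  · exact hφ.pow_mem_iff hn j

variable (q) in
/-- The unramified character of order `n` of the Galois group of `ℚ_q`. -/
theorem exists_unr_hom_top {n : ℕ} (hn : n ≠ 0) :
    ∃ θ : (PadicAlgCl q ≃ₐ[ℚ_[q]] PadicAlgCl q) →* Multiplicative (ZMod n),
      Function.Surjective θ ∧ inertiaLoc q ≤ θ.ker ∧
      IsOpen (θ.ker : Set (PadicAlgCl q ≃ₐ[ℚ_[q]] PadicAlgCl q)) ∧
      (lvlOver (localGaloisToGlobal q)).IsOpen θ.ker := by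
  let K : IntermediateField ℚ_[q] (PadicAlgCl q) := ⊥
  have hK : FiniteDimensional ℚ_[q] K := inferInstanceAs (FiniteDimensional ℚ_[q]
    (⊥ : IntermediateField ℚ_[q] (PadicAlgCl q)))
  have htop : K.fixingSubgroup = ⊤ := IntermediateField.fixingSubgroup_bot
  obtain ⟨φ, hφ⟩ := exists_isFrob K hn
  have hnorm : (unrSub K n).Normal := by
    have : unrSub K n = muFix q (resCard K ^ n - 1) := by
      rw [unrSub, htop, top_inf_eq]
    rw [this]; infer_instance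
  obtain ⟨θ, h1, h2⟩ := exists_hom_zmod hnorm (n := n) (φ := φ)
    (fun τ => by
      obtain ⟨j, _, hj⟩ := hφ.exists_pow hn (τ := τ) (by rw [htop]; trivial)
      exact ⟨j, hj⟩)
    (fun j => hφ.pow_mem_iff hn j)
  have hopen : IsOpen (θ.ker : Set (PadicAlgCl q ≃ₐ[ℚ_[q]] PadicAlgCl q)) := by
    rw [h2]; exact isOpen_unrSub K hn
  refine ⟨θ, ?_, ?_, hopen, isOpen_lvlOver_iff.mpr hopen⟩
  · intro x
    refine ⟨φ ^ (Multiplicative.toAdd x).val, ?_⟩
    have : NeZero n := ⟨hn⟩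
    rw [map_pow, h1, ← ofAdd_nsmul, nsmul_one, ZMod.natCast_zmod_val]
    rfl
  · rw [h2]
    have := inf_inertiaLoc_le_unrSub K hn
    rwa [htop, top_inf_eq] at this

end Fermat.Agent.CFT.Unram
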