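import Fermat.Agent.CFT.Unram.Residue

/-!
# Frobenius elements and inertia in the absolute Galois group of `ℚ_q`

* `muFix m`: the subgroup of elements fixing all `m`-th roots of unity;
* `inertiaLoc q`: the inertia subgroup;
* `exists_frob`: existence of Frobenius elements;
* `exists_pow_of_mem`: on `(Q^n-1)`-th roots of unity every element of `G_K` acts as a power of
  Frobenius;
* `exists_muFix_le`: every open subgroup containing the inertia subgroup of `G_K`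
  contains `G_{K(μ_{Q^n-1})}` for suitable `n`.
-/

set_option autoImplicit false

open Filter Topology Polynomial

namespace Fermat.Agent.CFT.Unram

open Fermat.Agent.CFT.Local

variable {q : ℕ} [Fact q.Prime]

theorem norm_algEquiv (τ : PadicAlgCl q ≃ₐ[ℚ_[q]] PadicAlgCl q) (y : PadicAlgCl q) :
    ‖τ y‖ = ‖y‖ := (spectralNorm_eq_of_equiv τ y).symm

variable (q) in
/-- The elements of the Galois group fixing all `m`-th roots of unity. -/
def muFix (m : ℕ) : Subgroup (PadicAlgCl q ≃ₐ[ℚ_[q]] PadicAlgCl q) where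
  carrier := {τ | ∀ ζ : PadicAlgCl q, ζ ^ m = 1 → τ ζ = ζ}
  one_mem' := fun ζ _ => rfl
  mul_mem' := fun {a b} ha hb ζ hζ => by
    rw [AlgEquiv.mul_apply, hb ζ hζ, ha ζ hζ]
  inv_mem' := fun {a} ha ζ hζ => by
    rw [AlgEquiv.aut_inv, AlgEquiv.symm_apply_eq, ha ζ hζ]

theorem mem_muFix {m : ℕ} {τ : PadicAlgCl q ≃ₐ[ℚ_[q]] PadicAlgCl q} :
    τ ∈ muFix q m ↔ ∀ ζ : PadicAlgCl q, ζ ^ m = 1 → τ ζ = ζ := Iff.rfl

instance muFix_normal (m : ℕ) : (muFix q m).Normal := by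
  refine ⟨fun τ hτ g ζ hζ => ?_⟩
  have h1 : (g⁻¹ ζ) ^ m = 1 := by rw [← map_pow, hζ, map_one]
  change g (τ (g⁻¹ ζ)) = ζ
  rw [hτ _ h1]
  change (g * g⁻¹) ζ = ζ
  rw [mul_inv_cancel]; rfl

theorem muFix_le_of_dvd {m m' : ℕ} (h : m ∣ m') : muFix q m' ≤ muFix q m := by
  intro τ hτ ζ hζ
  obtain ⟨c, rfl⟩ := h
  exact hτ ζ (by rw [pow_mul, hζ, one_pow])

theorem muFix_eq (m : ℕ) :
    muFix q m = (IntermediateField.adjoin ℚ_[q] {ζ : PadicAlgCl q | ζ ^ m = 1}).fixingSubgroup := by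
  ext τ
  rw [IntermediateField.mem_fixingSubgroup_iff, mem_muFix]
  constructor
  · intro h x hx
    have h2 : IntermediateField.adjoin ℚ_[q] {ζ : PadicAlgCl q | ζ ^ m = 1} ≤
        IntermediateField.fixedField (Subgroup.zpowers τ) := by
      rw [IntermediateField.adjoin_le_iff]
      intro y hy
      rw [SetLike.mem_coe, IntermediateField.mem_fixedField_iff]
      intro σ hσ
      have h3 : Subgroup.zpowers τ ≤
          MulAction.stabilizer (PadicAlgCl q ≃ₐ[ℚ_[q]] PadicAlgCl q) y := by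
        rw [Subgroup.zpowers_le, MulAction.mem_stabilizer_iff]
        exact h y hy
      exact h3 hσ
    have h4 := h2 hx
    rw [IntermediateField.mem_fixedField_iff] at h4
    exact h4 τ (Subgroup.mem_zpowers τ)
  · intro h ζ hζ
    exact h ζ (IntermediateField.subset_adjoin _ _ hζ)

theorem isClosed_muFix (m : ℕ) :
    IsClosed (muFix q m : Set (PadicAlgCl q ≃ₐ[ℚ_[q]] PadicAlgCl q)) := by
  rw [muFix_eq]
  exact InfiniteGalois.fixingSubgroup_isClosed _

theorem isOpen_muFix {m : ℕ} (hm : m ≠ 0) :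
    IsOpen (muFix q m : Set (PadicAlgCl q ≃ₐ[ℚ_[q]] PadicAlgCl q)) := by
  rw [muFix_eq]
  refine (InfiniteGalois.isOpen_iff_finite _).mpr ?_
  have hfin : Finite ({ζ : PadicAlgCl q | ζ ^ m = 1} : Set (PadicAlgCl q)) := by
    refine Set.Finite.subset (Finset.finite_toSet (nthRootsFinset m (1 : PadicAlgCl q))) ?_
    intro ζ hζ
    rw [Finset.mem_coe, mem_nthRootsFinset (Nat.pos_of_ne_zero hm)]
    exact hζ
  exact IntermediateField.finiteDimensional_adjoin fun x _ =>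
    (Algebra.IsAlgebraic.isAlgebraic x).isIntegral

variable (q) in
/-- The inertia subgroup of the absolute Galois group of `ℚ_q`. -/
def inertiaLoc : Subgroup (PadicAlgCl q ≃ₐ[ℚ_[q]] PadicAlgCl q) where
  carrier := {τ | ∀ x : PadicAlgCl q, ‖x‖ ≤ 1 → ‖τ x - x‖ < 1}
  one_mem' := fun x _ => by
    rw [AlgEquiv.one_apply, sub_self, norm_zero]; exact one_pos
  mul_mem' := fun {a b} ha hb x hx => by
    have h1 : (a * b) x - x = (a (b x) - b x) + (b x - x) := by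
      rw [AlgEquiv.mul_apply]; ring
    rw [h1]
    exact (IsUltrametricDist.norm_add_le_max _ _).trans_lt
      (max_lt (ha _ (by rw [norm_algEquiv]; exact hx)) (hb x hx))
  inv_mem' := fun {a} ha x hx => by
    have h1 := ha (a⁻¹ x) (by rw [norm_algEquiv]; exact hx)
    have h2 : a (a⁻¹ x) = x := by
      change (a * a⁻¹) x = x
      rw [mul_inv_cancel]; rfl
    rw [h2, norm_sub_rev] at h1
    exact h1

theorem mem_inertiaLoc {τ : PadicAlgCl q ≃ₐ[ℚ_[q]] PadicAlgCl q} :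
    τ ∈ inertiaLoc q ↔ ∀ x : PadicAlgCl q, ‖x‖ ≤ 1 → ‖τ x - x‖ < 1 := Iff.rfl

theorem norm_eq_one_of_pow {m : ℕ} (hm : m ≠ 0) {ζ : PadicAlgCl q} (h : ζ ^ m = 1) :
    ‖ζ‖ = 1 := by
  have h1 := congrArg norm h
  rw [norm_pow, norm_one] at h1
  exact (pow_eq_one_iff_of_nonneg (norm_nonneg _) hm).mp h1

theorem inertiaLoc_le_muFix {m : ℕ} (hm : m.Coprime q) : inertiaLoc q ≤ muFix q m := by
  intro τ hτ ζ hζ
  have hm1 := norm_natCast_eq_one q hm
  have hm0 : m ≠ 0 := by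
    rintro rfl
    simp at hm1
  refine eq_of_norm_sub_lt_one hm1 ?_ hζ (hτ ζ (norm_eq_one_of_pow hm0 hζ).le)
  rw [← map_pow, hζ, map_one]

/-- Elements of norm `1` are congruent to roots of unity of order prime to `q`. -/
theorem exists_root_of_unity {x : PadicAlgCl q} (hx : ‖x‖ = 1) :
    ∃ m : ℕ, m ≠ 0 ∧ m.Coprime q ∧ ∃ ζ : PadicAlgCl q, ζ ^ m = 1 ∧ ‖x - ζ‖ < 1 := by
  let K : IntermediateField ℚ_[q] (PadicAlgCl q) := IntermediateField.adjoin ℚ_[q] {x}
  have hK : FiniteDimensional ℚ_[q] K :=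
    IntermediateField.adjoin.finiteDimensional (Algebra.IsAlgebraic.isAlgebraic x).isIntegral
  obtain ⟨f, hf, hQ⟩ := resCard_eq K
  have hq2 : 2 ≤ q := (Fact.out : q.Prime).two_le
  have hQ2 : 2 ≤ resCard K := by
    rw [hQ]
    exact hq2.trans (Nat.le_self_pow hf.ne' q)
  let x' : OR (PadicAlgCl q) := ⟨x, hx.le⟩
  have hx' : res _ x' ∈ resField K :=
    ⟨x', IntermediateField.mem_adjoin_simple_self _ _, rfl⟩
  have h1 := pow_resCard K hx'
  have hne : res _ x' ≠ 0 := by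
    rw [Ne, res_eq_zero_iff, not_lt]
    exact hx.ge
  have h2 : (res _ x') ^ (resCard K - 1) = 1 := by
    have h3 : (res _ x') ^ (resCard K - 1) * res _ x' = 1 * res _ x' := by
      rw [← pow_succ, Nat.sub_add_cancel (by omega), h1, one_mul]
    exact mul_right_cancel₀ hne h3
  have hm0 : resCard K - 1 ≠ 0 := by omega
  have hmq : (resCard K - 1).Coprime q := by
    have h4 : (resCard K - 1).Coprime (resCard K) := by
      have := Nat.coprime_self_sub_right (m := 1) (n := resCard K) (by omega)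
      rw [Nat.coprime_comm]
      simpa using this
    rw [hQ] at h4 ⊢
    exact Nat.Coprime.coprime_dvd_right (dvd_pow_self q hf.ne') h4
  refine ⟨resCard K - 1, hm0, hmq, ?_⟩
  have : NeZero (resCard K - 1) := ⟨hm0⟩
  obtain ⟨ζ₀, hζ₀⟩ := HasEnoughRootsOfUnity.exists_primitiveRoot (PadicAlgCl q) (resCard K - 1)
  have h5 := X_pow_sub_one_eq_prod (Nat.pos_of_ne_zero hm0) hζ₀
  have h6 := congrArg (fun P => ‖Polynomial.eval x P‖) h5
  simp only [eval_sub, eval_pow, eval_X, eval_one, eval_prod, eval_C, norm_prod] at h6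
  have h7 : ‖x ^ (resCard K - 1) - 1‖ < 1 := by
    have h8 : res _ (x' ^ (resCard K - 1)) = res _ 1 := by rw [map_pow, h2, map_one]
    rw [res_eq_iff] at h8
    exact h8
  rw [h6] at h7
  by_contra hcon
  push Not at hcon
  apply absurd h7
  rw [not_lt]
  apply le_of_eq
  symm
  apply Finset.prod_eq_one
  intro ζ hζ
  rw [mem_nthRootsFinset (Nat.pos_of_ne_zero hm0)] at hζ
  apply le_antisymm
  · rw [sub_eq_add_neg]
    refine (IsUltrametricDist.norm_add_le_max _ _).trans (max_le hx.le ?_)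
    rw [norm_neg, norm_eq_one_of_pow hm0 hζ]
  · exact hcon ζ hζ

theorem mem_inertiaLoc_iff {τ : PadicAlgCl q ≃ₐ[ℚ_[q]] PadicAlgCl q} :
    τ ∈ inertiaLoc q ↔ ∀ m : ℕ, m ≠ 0 → m.Coprime q → τ ∈ muFix q m := by
  refine ⟨fun h m _ hm => inertiaLoc_le_muFix hm h, fun h x hx => ?_⟩
  rcases hx.lt_or_eq with hlt | heq
  · rw [sub_eq_add_neg]
    refine (IsUltrametricDist.norm_add_le_max _ _).trans_lt (max_lt ?_ ?_)
    · rw [norm_algEquiv]; exact hlt
    · rw [norm_neg]; exact hlt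
  · obtain ⟨m, hm0, hm, ζ, hζ, hxζ⟩ := exists_root_of_unity heq
    have h1 : τ x - x = τ (x - ζ) - (x - ζ) := by
      rw [map_sub, h m hm0 hm ζ hζ]; ring
    rw [h1, sub_eq_add_neg]
    refine (IsUltrametricDist.norm_add_le_max _ _).trans_lt (max_lt ?_ ?_)
    · rw [norm_algEquiv]; exact hxζ
    · rw [norm_neg]; exact hxζ

instance inertiaLoc_normal : (inertiaLoc q).Normal := by
  refine ⟨fun τ hτ g => ?_⟩
  rw [mem_inertiaLoc_iff] at hτ ⊢
  intro m hm0 hm
  exact (muFix_normal m).conj_mem τ (hτ m hm0 hm) g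

/-! ### Action on the residue field -/

/-- The action of the Galois group on the residue field. -/
noncomputable def resAut (τ : PadicAlgCl q ≃ₐ[ℚ_[q]] PadicAlgCl q) :
    RF (PadicAlgCl q) →+* RF (PadicAlgCl q) :=
  Ideal.quotientMap (MI (PadicAlgCl q))
    (((τ : PadicAlgCl q →+* PadicAlgCl q).comp (OR (PadicAlgCl q)).subtype).codRestrict
      (OR (PadicAlgCl q)) (fun x => by
        change ‖τ x‖ ≤ 1
        rw [norm_algEquiv]; exact x.2))
    (fun x hx => by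
      rw [Ideal.mem_comap]
      change ‖τ x‖ < 1
      rw [norm_algEquiv]; exact hx)

theorem resAut_res (τ : PadicAlgCl q ≃ₐ[ℚ_[q]] PadicAlgCl q) (x : OR (PadicAlgCl q))
    (h : ‖τ x‖ ≤ 1) : resAut τ (res _ x) = res _ ⟨τ x, h⟩ := rfl

section Field

variable (K : IntermediateField ℚ_[q] (PadicAlgCl q))

theorem resAut_eq {τ : PadicAlgCl q ≃ₐ[ℚ_[q]] PadicAlgCl q} (hτ : τ ∈ K.fixingSubgroup)
    {c : RF (PadicAlgCl q)} (hc : c ∈ resField K) : resAut τ c = c := by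
  obtain ⟨x, hx, rfl⟩ := hc
  have h1 : τ x = x := (IntermediateField.mem_fixingSubgroup_iff K τ).mp hτ _ hx
  rw [resAut_res τ x (by rw [h1]; exact x.2)]
  congr 1
  exact Subtype.ext h1

variable [FiniteDimensional ℚ_[q] K]

theorem two_le_resCard : 2 ≤ resCard K := by
  obtain ⟨f, hf, hQ⟩ := resCard_eq K
  rw [hQ]
  exact (Fact.out : q.Prime).two_le.trans (Nat.le_self_pow hf.ne' q)

theorem coprime_resCard {m : ℕ} (hm : m.Coprime q) : m.Coprime (resCard K) := by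
  obtain ⟨f, hf, hQ⟩ := resCard_eq K
  rw [hQ]
  exact Nat.Coprime.pow_right f hm

theorem coprime_pow_sub_one {n : ℕ} (hn : n ≠ 0) : (resCard K ^ n - 1).Coprime q := by
  obtain ⟨f, hf, hQ⟩ := resCard_eq K
  have h2 := two_le_resCard K
  have h3 : 1 ≤ resCard K ^ n := Nat.one_le_pow _ _ (by omega)
  have h4 : (resCard K ^ n - 1).Coprime (resCard K ^ n) := by
    have := Nat.coprime_self_sub_right (m := 1) (n := resCard K ^ n) h3
    rw [Nat.coprime_comm]
    simpa using this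
  refine Nat.Coprime.coprime_dvd_right ?_ h4
  rw [hQ, ← pow_mul]
  exact dvd_pow_self q (mul_ne_zero hf.ne' hn)

theorem pow_sub_one_ne_zero {n : ℕ} (hn : n ≠ 0) : resCard K ^ n - 1 ≠ 0 := by
  have h2 := two_le_resCard K
  have h3 : 2 ≤ resCard K ^ n := h2.trans (Nat.le_self_pow hn _)
  omega

/-- Frobenius of the residue field, as a ring homomorphism. -/
theorem exists_frobHom : ∃ φ : RF (PadicAlgCl q) →+* RF (PadicAlgCl q),
    ∀ x, φ x = x ^ resCard K := by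
  obtain ⟨f, hf, hQ⟩ := resCard_eq K
  have : ExpChar (RF (PadicAlgCl q)) q := ExpChar.prime (Fact.out : q.Prime)
  refine ⟨iterateFrobenius (RF (PadicAlgCl q)) q f, fun x => ?_⟩
  rw [iterateFrobenius_def, hQ]

/-- **Existence of Frobenius elements**: for `m` prime to `q` there is an element of `G_K` acting
on `m`-th roots of unity by `ζ ↦ ζ ^ Q`. -/
theorem exists_frob {m : ℕ} (hm : m.Coprime q) :
    ∃ φ ∈ K.fixingSubgroup, ∀ ζ : PadicAlgCl q, ζ ^ m = 1 → φ ζ = ζ ^ resCard K := by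
  classical
  have hm1 := norm_natCast_eq_one q hm
  have hm0 : m ≠ 0 := by
    rintro rfl
    simp at hm1
  have : NeZero m := ⟨hm0⟩
  obtain ⟨ζ, hζ⟩ := HasEnoughRootsOfUnity.exists_primitiveRoot (PadicAlgCl q) m
  -- the conjugates of `ζ` over `K`
  let Ω : Finset (PadicAlgCl q) :=
    (nthRootsFinset m (1 : PadicAlgCl q)).filter (fun ω => ∃ g ∈ K.fixingSubgroup, g ζ = ω)
  have hΩ : ∀ ω, ω ∈ Ω ↔ ∃ g ∈ K.fixingSubgroup, g ζ = ω := by
    intro ω
    simp only [Ω, Finset.mem_filter, mem_nthRootsFinset (Nat.pos_of_ne_zero hm0),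
      and_iff_right_iff_imp]
    rintro ⟨g, _, rfl⟩
    rw [← map_pow, hζ.pow_eq_one, map_one]
  have hΩ1 : ∀ ω ∈ Ω, ω ^ m = 1 := by
    intro ω hω
    simp only [Ω, Finset.mem_filter, mem_nthRootsFinset (Nat.pos_of_ne_zero hm0)] at hω
    exact hω.1
  have hΩn : ∀ ω ∈ Ω, ‖ω‖ ≤ 1 := fun ω hω => (norm_eq_one_of_pow hm0 (hΩ1 ω hω)).le
  let lift : PadicAlgCl q → OR (PadicAlgCl q) := fun x => if h : ‖x‖ ≤ 1 then ⟨x, h⟩ else 0
  have hlift : ∀ x, ‖x‖ ≤ 1 → ((lift x : OR (PadicAlgCl q)) : PadicAlgCl q) = x := by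
    intro x hx
    simp only [lift, dif_pos hx]
  let P : (OR (PadicAlgCl q))[X] := ∏ ω ∈ Ω, (X - C (lift ω))
  have hPmap : P.map (OR (PadicAlgCl q)).subtype = ∏ ω ∈ Ω, (X - C ω) := by
    rw [Polynomial.map_prod]
    refine Finset.prod_congr rfl fun ω hω => ?_
    rw [Polynomial.map_sub, map_X, map_C, Subring.subtype_apply, hlift ω (hΩn ω hω)]
  -- the coefficients lie in `K`
  have hcoeff : ∀ i, ((P.coeff i : OR (PadicAlgCl q)) : PadicAlgCl q) ∈ K := by
    intro i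
    refine (InfiniteGalois.fixedField_fixingSubgroup K).le ?_
    rw [IntermediateField.mem_fixedField_iff]
    intro g hg
    have h1 : (P.map (OR (PadicAlgCl q)).subtype).map (g : PadicAlgCl q →+* PadicAlgCl q) =
        P.map (OR (PadicAlgCl q)).subtype := by
      rw [hPmap, Polynomial.map_prod]
      have himg : Ω.image g = Ω := by
        apply Finset.eq_of_subset_of_card_le
        · intro ω hω
          rw [Finset.mem_image] at hω
          obtain ⟨ω', hω', rfl⟩ := hω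
          rw [hΩ] at hω' ⊢
          obtain ⟨h, hh, rfl⟩ := hω'
          exact ⟨g * h, mul_mem hg hh, rfl⟩
        · rw [Finset.card_image_of_injective _ g.injective]
      conv_rhs => rw [← himg]
      rw [Finset.prod_image (fun a _ b _ hab => g.injective hab)]
      refine Finset.prod_congr rfl fun ω _ => ?_
      rw [Polynomial.map_sub, map_X, map_C]
      rfl
    have h2 := congrArg (fun R => Polynomial.coeff R i) h1
    simp only [coeff_map] at h2
    exact h2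
  -- reduce
  obtain ⟨Fr, hFr⟩ := exists_frobHom K
  let P' : (RF (PadicAlgCl q))[X] := P.map (res (PadicAlgCl q))
  have hP' : P'.map Fr = P' := by
    ext i
    rw [coeff_map, hFr, coeff_map]
    exact pow_resCard K ⟨_, hcoeff i, rfl⟩
  have hζn : ‖ζ‖ ≤ 1 := (norm_eq_one_of_pow hm0 hζ.pow_eq_one).le
  have hζΩ : ζ ∈ Ω := (hΩ ζ).mpr ⟨1, one_mem _, rfl⟩
  have hP'prod : P' = ∏ ω ∈ Ω, (X - C (res _ (lift ω))) := by
    simp only [P', P, Polynomial.map_prod, Polynomial.map_sub, map_X, map_C]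
  have heval : P'.eval (res _ (lift ζ)) = 0 := by
    rw [hP'prod, eval_prod]
    exact Finset.prod_eq_zero hζΩ (by simp)
  have heval2 : P'.eval (res _ (lift ζ) ^ resCard K) = 0 := by
    rw [← hFr]
    conv_lhs => rw [← hP']
    rw [eval_map, eval₂_at_apply, heval, map_zero]
  rw [hP'prod, eval_prod, Finset.prod_eq_zero_iff] at heval2
  obtain ⟨ω, hω, h5⟩ := heval2
  rw [eval_sub, eval_X, eval_C, sub_eq_zero, ← map_pow, res_eq_iff] at h5
  have h6 : ‖ζ ^ resCard K - ω‖ < 1 := by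
    have h7 : (((lift ζ) ^ resCard K : OR (PadicAlgCl q)) : PadicAlgCl q) = ζ ^ resCard K := by
      rw [Subring.coe_pow, hlift ζ hζn]
    rwa [h7, hlift ω (hΩn ω hω)] at h5
  have h8 : ζ ^ resCard K = ω := by
    refine eq_of_norm_sub_lt_one hm1 ?_ (hΩ1 ω hω) h6
    rw [← pow_mul, mul_comm, pow_mul, hζ.pow_eq_one, one_pow]
  obtain ⟨g, hg, hgζ⟩ := (hΩ ω).mp hω
  refine ⟨g, hg, fun ξ hξ => ?_⟩
  obtain ⟨i, _, rfl⟩ := hζ.eq_pow_of_pow_eq_one hξ
  rw [map_pow, hgζ, ← h8, ← pow_mul, ← pow_mul, mul_comm]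

/-- On `(Q^n-1)`-th roots of unity every element of `G_K` acts as a power of Frobenius. -/
theorem exists_pow_of_mem {n : ℕ} (hn : n ≠ 0) {τ : PadicAlgCl q ≃ₐ[ℚ_[q]] PadicAlgCl q}
    (hτ : τ ∈ K.fixingSubgroup) :
    ∃ j < n, ∀ ζ : PadicAlgCl q, ζ ^ (resCard K ^ n - 1) = 1 → τ ζ = ζ ^ (resCard K ^ j) := by
  classical
  set m := resCard K ^ n - 1 with hm
  have hm0 : m ≠ 0 := pow_sub_one_ne_zero K hn
  have hmq : m.Coprime q := coprime_pow_sub_one K hn
  have hm1 := norm_natCast_eq_one q hmq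
  have : NeZero m := ⟨hm0⟩
  obtain ⟨ζ, hζ⟩ := HasEnoughRootsOfUnity.exists_primitiveRoot (PadicAlgCl q) m
  have hζn : ‖ζ‖ = 1 := norm_eq_one_of_pow hm0 hζ.pow_eq_one
  let z : OR (PadicAlgCl q) := ⟨ζ, hζn.le⟩
  have hzQ : z ^ (resCard K ^ n) = z := by
    have h1 : z ^ m = 1 := Subtype.ext hζ.pow_eq_one
    have h2 : resCard K ^ n = m + 1 := by
      have := Nat.one_le_pow n (resCard K) (by have := two_le_resCard K; omega)
      omega
    rw [h2, pow_succ, h1, one_mul]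
  obtain ⟨Fr, hFr⟩ := exists_frobHom K
  let R : (RF (PadicAlgCl q))[X] := ∏ j ∈ Finset.range n, (X - C (res _ z ^ (resCard K ^ j)))
  have hR : R.map Fr = R := by
    simp only [R, Polynomial.map_prod, Polynomial.map_sub, map_X, map_C, hFr]
    have h1 : ∀ j, (res _ z ^ resCard K ^ j) ^ resCard K = res _ z ^ resCard K ^ (j + 1) := by
      intro j
      rw [← pow_mul, ← pow_succ]
    simp only [h1]
    have h2 := Finset.prod_range_succ' (fun j => (X - C (res _ z ^ (resCard K ^ j)) :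
      (RF (PadicAlgCl q))[X])) n
    rw [Finset.prod_range_succ] at h2
    have h3 : (res _ z ^ (resCard K ^ n)) = res _ z ^ (resCard K ^ 0) := by
      rw [← map_pow, hzQ, pow_zero, pow_one]
    rw [h3] at h2
    have h4 : (X - C (res _ z ^ (resCard K ^ 0)) : (RF (PadicAlgCl q))[X]) ≠ 0 :=
      X_sub_C_ne_zero _
    exact (mul_right_cancel₀ h4 h2).symm
  have hcoeff : ∀ i, R.coeff i ∈ resField K := by
    intro i
    apply mem_resField_of_pow
    rw [← hFr, ← coeff_map, hR]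
  have hRτ : R.map (resAut τ) = R := by
    ext i
    rw [coeff_map]
    exact resAut_eq K hτ (hcoeff i)
  have heval : R.eval (res _ z) = 0 := by
    rw [eval_prod]
    exact Finset.prod_eq_zero (Finset.mem_range.mpr (Nat.pos_of_ne_zero hn)) (by simp)
  have hτn : ‖τ z‖ ≤ 1 := by rw [norm_algEquiv]; exact hζn.le
  have heval2 : R.eval (res _ ⟨τ z, hτn⟩) = 0 := by
    rw [← resAut_res τ z hτn]
    conv_lhs => rw [← hRτ]
    rw [eval_map, eval₂_at_apply, heval, map_zero]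
  rw [eval_prod, Finset.prod_eq_zero_iff] at heval2
  obtain ⟨j, hj, h5⟩ := heval2
  rw [eval_sub, eval_X, eval_C, sub_eq_zero, ← map_pow, res_eq_iff] at h5
  refine ⟨j, Finset.mem_range.mp hj, ?_⟩
  have h6 : τ ζ = ζ ^ (resCard K ^ j) := by
    refine eq_of_norm_sub_lt_one hm1 ?_ ?_ h5
    · rw [← map_pow, hζ.pow_eq_one, map_one]
    · rw [← pow_mul, mul_comm, pow_mul, hζ.pow_eq_one, one_pow]
  intro ξ hξ
  obtain ⟨i, _, rfl⟩ := hζ.eq_pow_of_pow_eq_one hξ
  rw [map_pow, h6, ← pow_mul, ← pow_mul, mul_comm]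

/-- `G_K ∩ muFix (Q^n-1)`, the Galois group of the unramified extension of degree `n` of `K`. -/
noncomputable def unrSub (n : ℕ) : Subgroup (PadicAlgCl q ≃ₐ[ℚ_[q]] PadicAlgCl q) :=
  K.fixingSubgroup ⊓ muFix q (resCard K ^ n - 1)

omit [FiniteDimensional ℚ_[q] K] in
theorem unrSub_le (n : ℕ) : unrSub K n ≤ K.fixingSubgroup := inf_le_left

omit [FiniteDimensional ℚ_[q] K] in
theorem unrSub_le_of_dvd {n n' : ℕ} (h : n ∣ n') : unrSub K n' ≤ unrSub K n :=
  inf_le_inf_left _ (muFix_le_of_dvd (Nat.pow_sub_one_dvd_pow_sub_one _ h))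

theorem isOpen_fixingSubgroup :
    IsOpen (K.fixingSubgroup : Set (PadicAlgCl q ≃ₐ[ℚ_[q]] PadicAlgCl q)) :=
  (InfiniteGalois.isOpen_iff_finite K).mpr inferInstance

theorem isOpen_unrSub {n : ℕ} (hn : n ≠ 0) :
    IsOpen (unrSub K n : Set (PadicAlgCl q ≃ₐ[ℚ_[q]] PadicAlgCl q)) :=
  (isOpen_fixingSubgroup K).inter (isOpen_muFix (pow_sub_one_ne_zero K hn))

theorem inf_inertiaLoc_le_unrSub {n : ℕ} (hn : n ≠ 0) :
    K.fixingSubgroup ⊓ inertiaLoc q ≤ unrSub K n :=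
  inf_le_inf_left _ (inertiaLoc_le_muFix (coprime_pow_sub_one K hn))

omit [FiniteDimensional ℚ_[q] K] in
theorem unrSub_subgroupOf_normal (n : ℕ) :
    ((unrSub K n).subgroupOf K.fixingSubgroup).Normal := by
  refine ⟨fun τ hτ g => ?_⟩
  rw [Subgroup.mem_subgroupOf] at hτ ⊢
  exact ⟨(g * τ * g⁻¹).2, (muFix_normal _).conj_mem _ hτ.2 _⟩

/-- A Frobenius element for the level `n`. -/
def IsFrob (n : ℕ) (φ : PadicAlgCl q ≃ₐ[ℚ_[q]] PadicAlgCl q) : Prop :=
  φ ∈ K.fixingSubgroup ∧ ∀ ζ : PadicAlgCl q, ζ ^ (resCard K ^ n - 1) = 1 → φ ζ = ζ ^ resCard K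

theorem exists_isFrob {n : ℕ} (hn : n ≠ 0) : ∃ φ, IsFrob K n φ :=
  exists_frob K (coprime_pow_sub_one K hn)

variable {K} in
omit [FiniteDimensional ℚ_[q] K] in
theorem IsFrob.pow {n : ℕ} {φ : PadicAlgCl q ≃ₐ[ℚ_[q]] PadicAlgCl q} (h : IsFrob K n φ) (j : ℕ)
    {ζ : PadicAlgCl q} (hζ : ζ ^ (resCard K ^ n - 1) = 1) : (φ ^ j) ζ = ζ ^ (resCard K ^ j) := by
  induction j with
  | zero => simp
  | succ j ih =>
    rw [pow_succ', AlgEquiv.mul_apply, ih, map_pow, h.2 ζ hζ, ← pow_mul, pow_succ', mul_comm]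

variable {K} in
omit [FiniteDimensional ℚ_[q] K] in
theorem IsFrob.of_dvd {n n' : ℕ} {φ : PadicAlgCl q ≃ₐ[ℚ_[q]] PadicAlgCl q} (h : IsFrob K n' φ)
    (hd : n ∣ n') : IsFrob K n φ := by
  refine ⟨h.1, fun ζ hζ => h.2 ζ ?_⟩
  obtain ⟨c, hc⟩ := Nat.pow_sub_one_dvd_pow_sub_one (resCard K) hd
  rw [hc, pow_mul, hζ, one_pow]

variable {K} in
theorem IsFrob.pow_mem_iff {n : ℕ} (hn : n ≠ 0) {φ : PadicAlgCl q ≃ₐ[ℚ_[q]] PadicAlgCl q}
    (h : IsFrob K n φ) (j : ℕ) : φ ^ j ∈ unrSub K n ↔ n ∣ j := by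
  have hm0 : resCard K ^ n - 1 ≠ 0 := pow_sub_one_ne_zero K hn
  have : NeZero (resCard K ^ n - 1) := ⟨hm0⟩
  have h2 := two_le_resCard K
  constructor
  · rintro ⟨_, h1⟩
    obtain ⟨ζ, hζ⟩ := HasEnoughRootsOfUnity.exists_primitiveRoot (PadicAlgCl q)
      (resCard K ^ n - 1)
    have h3 := h1 ζ hζ.pow_eq_one
    rw [h.pow j hζ.pow_eq_one] at h3
    have h4 : ζ ^ (resCard K ^ j - 1) = 1 := by
      have h5 : ζ ≠ 0 := hζ.ne_zero hm0
      have h6 : ζ ^ (resCard K ^ j - 1) * ζ = 1 * ζ := by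
        rw [← pow_succ, Nat.sub_add_cancel (Nat.one_le_pow _ _ (by omega)), h3, one_mul]
      exact mul_right_cancel₀ h5 h6
    have h5 := hζ.dvd_of_pow_eq_one _ h4
    have h6 := Nat.pow_sub_one_gcd_pow_sub_one (resCard K) n j
    rw [Nat.gcd_eq_left h5] at h6
    have h7 : resCard K ^ n = resCard K ^ (n.gcd j) := by
      have e1 : 1 ≤ resCard K ^ n := Nat.one_le_pow _ _ (by omega)
      have e2 : 1 ≤ resCard K ^ (n.gcd j) := Nat.one_le_pow _ _ (by omega)
      omega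
    have h8 := Nat.pow_right_injective h2 h7
    rw [h8]
    exact Nat.gcd_dvd_right _ _
  · intro hd
    refine ⟨pow_mem h.1 j, fun ζ hζ => ?_⟩
    rw [h.pow j hζ]
    obtain ⟨c, hc⟩ := Nat.pow_sub_one_dvd_pow_sub_one (resCard K) hd
    have h3 : resCard K ^ j = (resCard K ^ j - 1) + 1 :=
      (Nat.sub_add_cancel (Nat.one_le_pow _ _ (by omega))).symm
    rw [h3, pow_succ, hc, pow_mul, hζ, one_pow, one_mul]

variable {K} in
theorem IsFrob.exists_pow {n : ℕ} (hn : n ≠ 0) {φ : PadicAlgCl q ≃ₐ[ℚ_[q]] PadicAlgCl q}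
    (h : IsFrob K n φ) {τ : PadicAlgCl q ≃ₐ[ℚ_[q]] PadicAlgCl q} (hτ : τ ∈ K.fixingSubgroup) :
    ∃ j < n, (φ ^ j)⁻¹ * τ ∈ unrSub K n := by
  obtain ⟨j, hj, h1⟩ := exists_pow_of_mem K hn hτ
  refine ⟨j, hj, K.fixingSubgroup.mul_mem (K.fixingSubgroup.inv_mem
    (K.fixingSubgroup.pow_mem h.1 j)) hτ, fun ζ hζ => ?_⟩
  rw [AlgEquiv.mul_apply, h1 ζ hζ, ← h.pow j hζ]
  change ((φ ^ j)⁻¹ * φ ^ j) ζ = ζ
  rw [inv_mul_cancel]; rfl

/-- An open subgroup containing the inertia group of `K` contains the Galois group of an unramified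
extension of `K`. -/
theorem exists_unrSub_le {V : Subgroup (PadicAlgCl q ≃ₐ[ℚ_[q]] PadicAlgCl q)}
    (hV : IsOpen (V : Set (PadicAlgCl q ≃ₐ[ℚ_[q]] PadicAlgCl q)))
    (h : K.fixingSubgroup ⊓ inertiaLoc q ≤ V) : ∃ n ≠ 0, unrSub K n ≤ V := by
  have hcl : IsClosed (V : Set (PadicAlgCl q ≃ₐ[ℚ_[q]] PadicAlgCl q))ᶜ :=
    hV.isClosed_compl
  have hKcl : IsClosed (K.fixingSubgroup : Set (PadicAlgCl q ≃ₐ[ℚ_[q]] PadicAlgCl q)) :=
    InfiniteGalois.fixingSubgroup_isClosed K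
  have hcpt : IsCompact ((K.fixingSubgroup : Set (PadicAlgCl q ≃ₐ[ℚ_[q]] PadicAlgCl q)) ∩
      (V : Set (PadicAlgCl q ≃ₐ[ℚ_[q]] PadicAlgCl q))ᶜ) := (hKcl.inter hcl).isCompact
  have hmono : ∀ n n' : ℕ, n ≤ n' → muFix q (resCard K ^ (n' + 1).factorial - 1) ≤
      muFix q (resCard K ^ (n + 1).factorial - 1) := by
    intro n n' hnn
    exact muFix_le_of_dvd (Nat.pow_sub_one_dvd_pow_sub_one _
      (Nat.factorial_dvd_factorial (by omega)))
  obtain ⟨n, hn⟩ := hcpt.elim_directed_family_closed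
    (fun n : ℕ => (muFix q (resCard K ^ (n + 1).factorial - 1) :
      Set (PadicAlgCl q ≃ₐ[ℚ_[q]] PadicAlgCl q)))
    (fun n => isClosed_muFix _)
    (by
      rw [Set.eq_empty_iff_forall_notMem]
      rintro τ ⟨⟨hτK, hτV⟩, hτ⟩
      apply hτV
      apply h
      refine ⟨hτK, ?_⟩
      change τ ∈ inertiaLoc q
      rw [mem_inertiaLoc_iff]
      intro m hm0 hm
      rw [Set.mem_iInter] at hτ
      have h1 := hτ (m.totient - 1)
      have hpos : 0 < m.totient := Nat.totient_pos.mpr (Nat.pos_of_ne_zero hm0)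
      rw [Nat.sub_add_cancel hpos] at h1
      refine muFix_le_of_dvd ?_ h1
      have h2 : m ∣ resCard K ^ m.totient - 1 := by
        have h3 := Nat.ModEq.pow_totient (coprime_resCard K hm).symm
        have h4 := (Nat.modEq_iff_dvd' (Nat.one_le_pow _ _
          (by have := two_le_resCard K; omega))).mp h3.symm
        exact h4
      exact h2.trans (Nat.pow_sub_one_dvd_pow_sub_one _
        (Nat.dvd_factorial hpos le_rfl)))
    (by
      intro n n'
      refine ⟨max n n', ?_, ?_⟩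
      · exact hmono _ _ (le_max_left _ _)
      · exact hmono _ _ (le_max_right _ _))
  refine ⟨(n + 1).factorial, Nat.factorial_ne_zero _, ?_⟩
  intro τ hτ
  by_contra hcon
  have : τ ∈ (∅ : Set (PadicAlgCl q ≃ₐ[ℚ_[q]] PadicAlgCl q)) := by
    rw [← hn]
    exact ⟨⟨hτ.1, hcon⟩, hτ.2⟩
  exact this

end Field

end Fermat.Agent.CFT.Unram
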