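import Fermat.Agent.CFT.Unram.Frobenius

/-!
# Unramified extensions: value group, norm group, Kummer extensions
-/

set_option autoImplicit false

open Filter Topology Polynomial

namespace Fermat.Agent.CFT.Unram

open Fermat.Agent.CFT.Local

variable {q : ℕ} [Fact q.Prime]

section Trace

variable {U V : Subgroup (PadicAlgCl q ≃ₐ[ℚ_[q]] PadicAlgCl q)}

/-- The sum over `U / V` of the conjugates of a `V`-invariant element is `U`-invariant. -/
theorem sum_out_fixed [Fintype (U ⧸ V.subgroupOf U)] {w : PadicAlgCl q}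
    (hw : ∀ τ ∈ V, τ w = w) {τ : PadicAlgCl q ≃ₐ[ℚ_[q]] PadicAlgCl q} (hτ : τ ∈ U) :
    τ (∑ c : U ⧸ V.subgroupOf U, ((Quotient.out c : U) : PadicAlgCl q ≃ₐ[ℚ_[q]] PadicAlgCl q) w) =
      ∑ c : U ⧸ V.subgroupOf U,
        ((Quotient.out c : U) : PadicAlgCl q ≃ₐ[ℚ_[q]] PadicAlgCl q) w := by
  rw [map_sum]
  let e : (U ⧸ V.subgroupOf U) ≃ (U ⧸ V.subgroupOf U) := MulAction.toPerm (⟨τ, hτ⟩ : U)
  refine Fintype.sum_equiv e _ _ fun c => ?_
  have h1 : (Quotient.out (e c))⁻¹ * (⟨τ, hτ⟩ * Quotient.out c : U) ∈ V.subgroupOf U := by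
    rw [← QuotientGroup.eq]
    have h2 : ((Quotient.out (e c) : U) : U ⧸ V.subgroupOf U) = e c := Quotient.out_eq _
    rw [h2]
    change (⟨τ, hτ⟩ : U) • c = _
    conv_lhs => rw [← Quotient.out_eq c]
    rfl
  rw [Subgroup.mem_subgroupOf] at h1
  have h3 := hw _ h1
  have h4 : ((Quotient.out (e c) : U) : PadicAlgCl q ≃ₐ[ℚ_[q]] PadicAlgCl q) w =
      (τ * ((Quotient.out c : U) : PadicAlgCl q ≃ₐ[ℚ_[q]] PadicAlgCl q)) w := by
    conv_lhs => rw [← h3]
    rw [← AlgEquiv.mul_apply]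
    congr 1
    simp
  rw [h4]
  rfl

end Trace

section Field

variable (K : IntermediateField ℚ_[q] (PadicAlgCl q)) [FiniteDimensional ℚ_[q] K]

omit [FiniteDimensional ℚ_[q] K] in
theorem mem_of_fixed {x : PadicAlgCl q} (h : ∀ τ ∈ K.fixingSubgroup, τ x = x) : x ∈ K := by
  refine (InfiniteGalois.fixedField_fixingSubgroup K).le ?_
  rw [IntermediateField.mem_fixedField_iff]
  exact h

/-- **Unramified extensions have the same value group.** -/
theorem exists_norm_eq_of_unrSub {n : ℕ} (hn : n ≠ 0) {y : PadicAlgCl q}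
    (hy : ∀ τ ∈ unrSub K n, τ y = y) : ∃ x ∈ K, ‖x‖ = ‖y‖ := by
  classical
  rcases eq_or_ne y 0 with rfl | hy0
  · exact ⟨0, zero_mem _, rfl⟩
  have hyn : 0 < ‖y‖ := norm_pos_iff.mpr hy0
  set m := resCard K ^ n - 1 with hm
  have hm0 : m ≠ 0 := pow_sub_one_ne_zero K hn
  have hmq : m.Coprime q := coprime_pow_sub_one K hn
  have hm1 := norm_natCast_eq_one q hmq
  have : NeZero m := ⟨hm0⟩
  obtain ⟨ζ, hζ⟩ := HasEnoughRootsOfUnity.exists_primitiveRoot (PadicAlgCl q) m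
  have hζn : ‖ζ‖ = 1 := norm_eq_one_of_pow hm0 hζ.pow_eq_one
  have hζfix : ∀ τ ∈ unrSub K n, τ ζ = ζ := fun τ hτ => hτ.2 ζ hζ.pow_eq_one
  have hfin : Finite (K.fixingSubgroup ⧸ (unrSub K n).subgroupOf K.fixingSubgroup) := by
    have h1 : ((unrSub K n).subgroupOf K.fixingSubgroup).FiniteIndex := by
      have := Subgroup.quotient_finite_of_isOpen (unrSub K n) (isOpen_unrSub K hn)
      have h2 : (unrSub K n).FiniteIndex := Subgroup.finiteIndex_of_finite_quotient
      infer_instance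
    infer_instance
  have hft : Fintype (K.fixingSubgroup ⧸ (unrSub K n).subgroupOf K.fixingSubgroup) :=
    Fintype.ofFinite _
  let o : (K.fixingSubgroup ⧸ (unrSub K n).subgroupOf K.fixingSubgroup) →
    (PadicAlgCl q ≃ₐ[ℚ_[q]] PadicAlgCl q) := fun c => ((Quotient.out c : K.fixingSubgroup) :
      PadicAlgCl q ≃ₐ[ℚ_[q]] PadicAlgCl q)
  let T : ℕ → PadicAlgCl q := fun i => ∑ c, o c (ζ ^ i * y)
  have hTK : ∀ i, T i ∈ K := by
    intro i
    apply mem_of_fixed
    intro τ hτ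
    exact sum_out_fixed (fun σ hσ => by rw [map_mul, map_pow, hζfix σ hσ, hy σ hσ]) hτ
  have hTle : ∀ i, ‖T i‖ ≤ ‖y‖ := by
    intro i
    refine IsUltrametricDist.norm_sum_le_of_forall_le_of_nonneg (norm_nonneg _) ?_
    intro c _
    rw [norm_algEquiv, norm_mul, norm_pow, hζn, one_pow, one_mul]
  by_contra hcon
  push Not at hcon
  have hTlt : ∀ i, ‖T i‖ < ‖y‖ := fun i => lt_of_le_of_ne (hTle i) (hcon _ (hTK i))
  -- the characters
  have hoζ : ∀ c, ‖o c ζ‖ ≤ 1 := fun c => by rw [norm_algEquiv, hζn]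
  have hoy : ∀ c, ‖o c y / y‖ ≤ 1 := fun c => by
    rw [norm_div, norm_algEquiv, div_self hyn.ne']
  let z : (K.fixingSubgroup ⧸ (unrSub K n).subgroupOf K.fixingSubgroup) → OR (PadicAlgCl q) :=
    fun c => ⟨o c ζ, hoζ c⟩
  let g : (K.fixingSubgroup ⧸ (unrSub K n).subgroupOf K.fixingSubgroup) → RF (PadicAlgCl q) :=
    fun c => res _ ⟨o c y / y, hoy c⟩
  have hginj : ∀ c c', res _ (z c) = res _ (z c') → c = c' := by
    intro c c' hcc
    rw [res_eq_iff] at hcc
    have h1 : o c ζ = o c' ζ := by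
      refine eq_of_norm_sub_lt_one hm1 ?_ ?_ hcc
      · rw [← map_pow, hζ.pow_eq_one, map_one]
      · rw [← map_pow, hζ.pow_eq_one, map_one]
    rw [← Quotient.out_eq c, ← Quotient.out_eq c']
    apply QuotientGroup.eq.mpr
    rw [Subgroup.mem_subgroupOf]
    refine ⟨((Quotient.out c)⁻¹ * Quotient.out c' : K.fixingSubgroup).2, ?_⟩
    intro ξ hξ
    obtain ⟨i, _, rfl⟩ := hζ.eq_pow_of_pow_eq_one hξ
    rw [map_pow]
    congr 1
    change ((o c)⁻¹ * o c') ζ = ζ
    rw [AlgEquiv.mul_apply, ← h1]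
    change ((o c)⁻¹ * o c) ζ = ζ
    rw [inv_mul_cancel]; rfl
  have hli := linearIndependent_monoidHom (Multiplicative ℕ) (RF (PadicAlgCl q))
  let χ : (K.fixingSubgroup ⧸ (unrSub K n).subgroupOf K.fixingSubgroup) →
    (Multiplicative ℕ →* RF (PadicAlgCl q)) := fun c => powersHom _ (res _ (z c))
  have hχ : Function.Injective χ := by
    intro c c' hcc
    exact hginj c c' ((powersHom _).injective hcc)
  have hli2 := hli.comp χ hχ
  rw [Fintype.linearIndependent_iff] at hli2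
  have hzero : ∑ c, g c • (fun f : Multiplicative ℕ →* RF (PadicAlgCl q) =>
      (f : Multiplicative ℕ → RF (PadicAlgCl q))) (χ c) = 0 := by
    funext i
    rw [Finset.sum_apply, Pi.zero_apply]
    have h1 : ∀ c, (g c • ((fun f : Multiplicative ℕ →* RF (PadicAlgCl q) =>
      (f : Multiplicative ℕ → RF (PadicAlgCl q))) (χ c))) i =
      res _ (⟨o c y / y, hoy c⟩ * z c ^ (Multiplicative.toAdd i)) := by
      intro c
      rw [map_mul, map_pow]
      rfl
    simp only [h1]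
    rw [← map_sum, res_eq_zero_iff]
    have h2 : ((∑ c, (⟨o c y / y, hoy c⟩ * z c ^ (Multiplicative.toAdd i) : OR (PadicAlgCl q)) :
      OR (PadicAlgCl q)) : PadicAlgCl q) = T (Multiplicative.toAdd i) / y := by
      rw [AddSubmonoidClass.coe_finsetSum, Finset.sum_div]
      refine Finset.sum_congr rfl fun c _ => ?_
      push_cast
      rw [map_mul, map_pow]
      ring
    rw [h2, norm_div, div_lt_one hyn]
    exact hTlt _
  have h3 := hli2 g hzero (QuotientGroup.mk 1)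
  rw [res_eq_zero_iff] at h3
  simp only [norm_div, norm_algEquiv, div_self hyn.ne', lt_self_iff_false] at h3

/-- Value groups and unramified elements. -/
theorem exists_norm_eq_of_inertia {V : Subgroup (PadicAlgCl q ≃ₐ[ℚ_[q]] PadicAlgCl q)}
    (hV : IsOpen (V : Set (PadicAlgCl q ≃ₐ[ℚ_[q]] PadicAlgCl q)))
    (h : K.fixingSubgroup ⊓ inertiaLoc q ≤ V) {y : PadicAlgCl q}
    (hy : ∀ τ ∈ V, τ y = y) : ∃ x ∈ K, ‖x‖ = ‖y‖ := by
  obtain ⟨n, hn, hle⟩ := exists_unrSub_le K hV h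
  exact exists_norm_eq_of_unrSub K hn fun τ hτ => hy τ (hle hτ)

/-- The value group is not divisible. -/
theorem exists_norm_ne_pow {p : ℕ} (hp : 2 ≤ p) :
    ∃ x : Kˣ, ∀ y : Kˣ, ‖(x : K)‖ ≠ ‖(y : K)‖ ^ p := by
  by_contra hcon
  push Not at hcon
  have hq0 := natCast_q_ne_zero q K
  have hq1 := norm_natCast_q_lt_one q K
  have hqpos : 0 < ‖((q : ℕ) : K)‖ := norm_pos_iff.mpr hq0
  have hseq : ∀ k : ℕ, ∃ y : Kˣ, ‖((q : ℕ) : K)‖ = ‖(y : K)‖ ^ (p ^ k) := by
    intro k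
    induction k with
    | zero => exact ⟨Units.mk0 _ hq0, by simp⟩
    | succ k ih =>
      obtain ⟨y, hy⟩ := ih
      obtain ⟨y', hy'⟩ := hcon y
      exact ⟨y', by rw [hy, hy', ← pow_mul, pow_succ, mul_comm]⟩
  set M := (iotaHom q K).range.index with hM
  have hM0 : M ≠ 0 := iotaHom_index_ne_zero q K
  obtain ⟨k, hk⟩ : ∃ k, M < p ^ k := ⟨M, Nat.lt_pow_self (by omega)⟩
  obtain ⟨y, hy⟩ := hseq k
  have h1 : y ^ M ∈ (iotaHom q K).range := Subgroup.pow_index_mem _ y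
  obtain ⟨⟨a, u⟩, hau⟩ := h1
  rw [iotaHom_apply] at hau
  have h2 : ‖((q : ℕ) : K)‖ ^ (Multiplicative.toAdd a) = ‖(y : K)‖ ^ M := by
    have h3 := congrArg (fun x : Kˣ => ‖(x : K)‖) hau
    simp only [Units.val_mul, Units.val_zpow_eq_zpow_val, qUnit, Units.val_mk0, norm_mul,
      norm_zpow, u.2.1, mul_one, Units.val_pow_eq_pow_val, norm_pow] at h3
    exact h3
  have h4 : ‖((q : ℕ) : K)‖ ^ (Multiplicative.toAdd a * (p ^ k : ℕ)) =
      ‖((q : ℕ) : K)‖ ^ (M : ℤ) := by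
    rw [zpow_mul, h2, zpow_natCast, zpow_natCast, ← pow_mul, mul_comm M, pow_mul, ← hy]
  have h5 : Multiplicative.toAdd a * ((p ^ k : ℕ) : ℤ) = M := by
    exact (zpow_right_injective₀ hqpos hq1.ne) h4
  have h6 : ((p ^ k : ℕ) : ℤ) ∣ (M : ℤ) := ⟨_, by rw [← h5, mul_comm]⟩
  have h7 : p ^ k ∣ M := by exact_mod_cast h6
  exact absurd (Nat.le_of_dvd (Nat.pos_of_ne_zero hM0) h7) (not_le.mpr hk)

end Field

/-- The elements of `fixU U` whose norm is a `p`-th power of the norm of an element of `fixU U`. -/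
def normPow (U : Subgroup (PadicAlgCl q ≃ₐ[ℚ_[q]] PadicAlgCl q)) (p : ℕ) :
    Subgroup (PadicAlgCl q)ˣ where
  carrier := {x | x ∈ fixU U ∧ ∃ y ∈ fixU U, ‖(x : PadicAlgCl q)‖ = ‖(y : PadicAlgCl q)‖ ^ p}
  one_mem' := ⟨one_mem _, 1, one_mem _, by simp⟩
  mul_mem' := by
    rintro a b ⟨ha, y, hy, hay⟩ ⟨hb, z, hz, hbz⟩
    exact ⟨mul_mem ha hb, y * z, mul_mem hy hz, by
      rw [Units.val_mul, Units.val_mul, norm_mul, norm_mul, hay, hbz, mul_pow]⟩
  inv_mem' := by
    rintro a ⟨ha, y, hy, hay⟩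
    exact ⟨inv_mem ha, y⁻¹, inv_mem hy, by
      rw [Units.val_inv_eq_inv_val, Units.val_inv_eq_inv_val, norm_inv, norm_inv, hay, inv_pow]⟩

theorem mem_normPow {U : Subgroup (PadicAlgCl q ≃ₐ[ℚ_[q]] PadicAlgCl q)} {p : ℕ}
    {x : (PadicAlgCl q)ˣ} : x ∈ normPow U p ↔
      x ∈ fixU U ∧ ∃ y ∈ fixU U, ‖(x : PadicAlgCl q)‖ = ‖(y : PadicAlgCl q)‖ ^ p := Iff.rfl

/-- **The norm group of an unramified extension of degree `p`**. -/
theorem map_normHom_unram {U V : Subgroup (PadicAlgCl q ≃ₐ[ℚ_[q]] PadicAlgCl q)}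
    (hV : IsOpen (V : Set (PadicAlgCl q ≃ₐ[ℚ_[q]] PadicAlgCl q))) (hVU : V ≤ U)
    (hn : (V.subgroupOf U).Normal) {p : ℕ} (hp : p.Prime) (hp2 : p ≠ 2)
    (hidx : V.relIndex U = p) (hI : U ⊓ inertiaLoc q ≤ V) [Fintype (U ⧸ V.subgroupOf U)] :
    (fixU V).map (normHom U V) = normPow U p := by
  have hidx2 := norm_index_group hV hVU hn hp hp2 hidx
  have hU : IsOpen (U : Set (PadicAlgCl q ≃ₐ[ℚ_[q]] PadicAlgCl q)) :=
    Subgroup.isOpen_mono hVU hV
  obtain ⟨K, hK1, rfl⟩ := exists_field_of_isOpen q hU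
  obtain ⟨F, hF1, rfl⟩ := exists_field_of_isOpen q hV
  have hKF : K ≤ F := by
    rw [← InfiniteGalois.fixedField_fixingSubgroup K, ← InfiniteGalois.fixedField_fixingSubgroup F]
    exact IntermediateField.fixedField_antitone hVU
  have hcard : Fintype.card
      (K.fixingSubgroup ⧸ F.fixingSubgroup.subgroupOf K.fixingSubgroup) = p := by
    rw [← Nat.card_eq_fintype_card]
    exact hidx
  have hle : (fixU F.fixingSubgroup).map (normHom K.fixingSubgroup F.fixingSubgroup) ≤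
      normPow K.fixingSubgroup p := by
    intro x hx
    have hx1 : x ∈ fixU K.fixingSubgroup := by
      rw [map_normHom_eq hKF] at hx
      rw [fixU_fixingSubgroup]
      obtain ⟨z, _, rfl⟩ := hx
      exact ⟨z, rfl⟩
    obtain ⟨y, hy, rfl⟩ := hx
    refine ⟨hx1, ?_⟩
    obtain ⟨y', hy'K, hy'⟩ := exists_norm_eq_of_inertia K hV hI (y := (y : PadicAlgCl q)) hy
    have hy'0 : y' ≠ 0 := by
      rw [← norm_ne_zero_iff, hy', norm_ne_zero_iff]
      exact y.ne_zero
    refine ⟨Units.mk0 y' hy'0, ?_, ?_⟩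
    · intro g hg
      exact (IntermediateField.mem_fixingSubgroup_iff K g).mp hg _ hy'K
    · rw [Fermat.Agent.CFT.Local.normHom_apply, norm_prod]
      simp only [norm_algEquiv, Finset.prod_const, Finset.card_univ, hcard, Units.val_mk0, hy']
  have hle2 : normPow K.fixingSubgroup p ≤ fixU K.fixingSubgroup := fun x hx => hx.1
  have hmul := Subgroup.relIndex_mul_relIndex _ _ _ hle hle2
  rw [hidx2] at hmul
  have hne1 : (normPow K.fixingSubgroup p).relIndex (fixU K.fixingSubgroup) ≠ 1 := by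
    rw [Ne, Subgroup.relIndex_eq_one]
    intro hcon
    obtain ⟨x, hx⟩ := exists_norm_ne_pow K hp.two_le
    let x' : (PadicAlgCl q)ˣ := Units.map (algebraMap K (PadicAlgCl q) : K →* PadicAlgCl q) x
    have hx' : x' ∈ fixU K.fixingSubgroup := by
      rw [fixU_fixingSubgroup]; exact ⟨x, rfl⟩
    obtain ⟨_, y, hy, hxy⟩ := hcon hx'
    rw [fixU_fixingSubgroup] at hy
    obtain ⟨y, rfl⟩ := hy
    exact hx y hxy
  have h2 : (normPow K.fixingSubgroup p).relIndex (fixU K.fixingSubgroup) = p := by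
    rcases (Nat.dvd_prime hp).mp ⟨_, hmul.symm.trans (mul_comm _ _)⟩ with h | h
    · exact absurd h hne1
    · exact h
  rw [h2] at hmul
  have h3 : ((fixU F.fixingSubgroup).map
      (normHom K.fixingSubgroup F.fixingSubgroup)).relIndex (normPow K.fixingSubgroup p) = 1 := by
    have hp0 := hp.pos
    exact Nat.eq_of_mul_eq_mul_right hp0 (by rw [hmul, one_mul])
  exact le_antisymm hle (Subgroup.relIndex_eq_one.mp h3)

/-- **Unramified Kummer extensions**: for `p ≠ q`, `a ∈ Kˣ` and `α ^ p = a`, the element `α` is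
fixed by the inertia subgroup of `G_K` iff the norm of `a` is the `p`-th power of the norm of an
element of `K`. -/
theorem kummer_unram_iff {U : Subgroup (PadicAlgCl q ≃ₐ[ℚ_[q]] PadicAlgCl q)}
    (hU : IsOpen (U : Set (PadicAlgCl q ≃ₐ[ℚ_[q]] PadicAlgCl q))) {p : ℕ} (hp : p.Prime)
    (hpq : p ≠ q) {a α : (PadicAlgCl q)ˣ} (ha : a ∈ fixU U) (hα : α ^ p = a) :
    (∀ τ ∈ U ⊓ inertiaLoc q, τ (α : PadicAlgCl q) = α) ↔ a ∈ normPow U p := by
  obtain ⟨K, hK1, rfl⟩ := exists_field_of_isOpen q hU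
  have hαa : (α : PadicAlgCl q) ^ p = a := by rw [← Units.val_pow_eq_pow_val, hα]
  constructor
  · intro h
    refine ⟨ha, ?_⟩
    -- the stabiliser of `α`
    let L : IntermediateField ℚ_[q] (PadicAlgCl q) :=
      IntermediateField.adjoin ℚ_[q] {(α : PadicAlgCl q)}
    have hL : FiniteDimensional ℚ_[q] L :=
      IntermediateField.adjoin.finiteDimensional
        (Algebra.IsAlgebraic.isAlgebraic (α : PadicAlgCl q)).isIntegral
    have hLfix : ∀ τ : PadicAlgCl q ≃ₐ[ℚ_[q]] PadicAlgCl q, τ (α : PadicAlgCl q) = α →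
        τ ∈ L.fixingSubgroup := by
      intro τ hτ
      rw [IntermediateField.mem_fixingSubgroup_iff]
      intro x hx
      have h2 : L ≤ IntermediateField.fixedField (Subgroup.zpowers τ) := by
        rw [IntermediateField.adjoin_simple_le_iff, IntermediateField.mem_fixedField_iff]
        intro σ hσ
        have h3 : Subgroup.zpowers τ ≤
            MulAction.stabilizer (PadicAlgCl q ≃ₐ[ℚ_[q]] PadicAlgCl q) (α : PadicAlgCl q) := by
          rw [Subgroup.zpowers_le, MulAction.mem_stabilizer_iff]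
          exact hτ
        exact h3 hσ
      have h4 := h2 hx
      rw [IntermediateField.mem_fixedField_iff] at h4
      exact h4 τ (Subgroup.mem_zpowers τ)
    obtain ⟨x, hxK, hx⟩ := exists_norm_eq_of_inertia K (isOpen_fixingSubgroup L)
      (fun τ hτ => hLfix τ (h τ hτ)) (y := (α : PadicAlgCl q))
      (fun τ hτ => (IntermediateField.mem_fixingSubgroup_iff L τ).mp hτ _
        (IntermediateField.mem_adjoin_simple_self _ _))
    have hx0 : x ≠ 0 := by
      rw [← norm_ne_zero_iff, hx, norm_ne_zero_iff]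
      exact α.ne_zero
    refine ⟨Units.mk0 x hx0, ?_, ?_⟩
    · intro g hg
      exact (IntermediateField.mem_fixingSubgroup_iff K g).mp hg _ hxK
    · rw [Units.val_mk0, hx, ← norm_pow, hαa]
  · rintro ⟨_, y, hy, hay⟩ τ ⟨hτK, hτI⟩
    have hpn : ‖(p : PadicAlgCl q)‖ = 1 :=
      norm_natCast_eq_one q ((Nat.coprime_primes hp (Fact.out : q.Prime)).mpr hpq)
    set β : PadicAlgCl q := α / y with hβ
    have hβn : ‖β‖ = 1 := by
      have h1 : ‖β‖ ^ p = 1 := by
        rw [hβ, norm_div, div_pow, ← norm_pow, hαa, hay, div_self]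
        exact pow_ne_zero _ (norm_ne_zero_iff.mpr y.ne_zero)
      exact (pow_eq_one_iff_of_nonneg (norm_nonneg _) hp.ne_zero).mp h1
    have hβ0 : β ≠ 0 := by rw [← norm_ne_zero_iff, hβn]; exact one_ne_zero
    have hβp : β ^ p = a / y ^ p := by rw [hβ, div_pow, hαa]
    have hτa : τ (a : PadicAlgCl q) = a := ha τ hτK
    have hτy : τ (y : PadicAlgCl q) = y := hy τ hτK
    have h1 : (τ β / β) ^ p = 1 := by
      rw [div_pow, ← map_pow, hβp, map_div₀, map_pow, hτa, hτy]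
      exact div_self (div_ne_zero a.ne_zero (pow_ne_zero _ y.ne_zero))
    have h2 : ‖τ β / β - 1‖ < 1 := by
      have h3 : τ β / β - 1 = (τ β - β) / β := by field_simp
      rw [h3, norm_div, hβn, div_one]
      exact hτI β hβn.le
    have h3 : τ β / β = 1 := eq_of_norm_sub_lt_one hpn h1 (one_pow p) h2
    have h4 : τ β = β := by rwa [div_eq_one_iff_eq hβ0] at h3
    have h5 : (α : PadicAlgCl q) = β * y := by
      rw [hβ, div_mul_cancel₀ _ y.ne_zero]
    rw [h5, map_mul, h4, hτy]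

end Fermat.Agent.CFT.Unram
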