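import Fermat.Agent.CFT.Local.PadicAlg

/-!
# The residue field of `PadicAlgCl q` and of finite extensions of `ℚ_q`
-/

set_option autoImplicit false

open Filter Topology

namespace Fermat.Agent.CFT.Unram

open Fermat.Agent.CFT.Local

section General

variable (E : Type) [NormedField E] [IsUltrametricDist E]

/-- The closed unit ball as a ring. -/
def OR : Subring E where
  carrier := {x | ‖x‖ ≤ 1}
  zero_mem' := by simp
  one_mem' := by simp
  add_mem' := fun {a b} ha hb => (IsUltrametricDist.norm_add_le_max a b).trans (max_le ha hb)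
  mul_mem' := fun {a b} ha hb => by
    change ‖a * b‖ ≤ 1
    rw [norm_mul]; exact mul_le_one₀ ha (norm_nonneg _) hb
  neg_mem' := fun {a} ha => by
    change ‖-a‖ ≤ 1
    rw [norm_neg]; exact ha

variable {E} in
theorem mem_OR {x : E} : x ∈ OR E ↔ ‖x‖ ≤ 1 := Iff.rfl

/-- The maximal ideal of the closed unit ball. -/
def MI : Ideal (OR E) where
  carrier := {x | ‖(x : E)‖ < 1}
  zero_mem' := by simp
  add_mem' := fun {a b} ha hb =>
    (IsUltrametricDist.norm_add_le_max (a : E) b).trans_lt (max_lt ha hb)
  smul_mem' := fun c x hx => by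
    change ‖(c : E) * x‖ < 1
    rw [norm_mul]
    exact (mul_le_of_le_one_left (norm_nonneg _) c.2).trans_lt hx

variable {E} in
theorem mem_MI {x : OR E} : x ∈ MI E ↔ ‖(x : E)‖ < 1 := Iff.rfl

instance MI_isMaximal : (MI E).IsMaximal := by
  rw [Ideal.isMaximal_iff]
  refine ⟨by rw [mem_MI]; simp, ?_⟩
  intro J x _ hx hxJ
  rw [mem_MI, not_lt] at hx
  have h1 : ‖(x : E)‖ = 1 := le_antisymm x.2 hx
  have h0 : (x : E) ≠ 0 := by rw [← norm_ne_zero_iff, h1]; exact one_ne_zero
  have h2 : (x : E)⁻¹ ∈ OR E := by rw [mem_OR, norm_inv, h1, inv_one]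
  have h3 : (1 : OR E) = ⟨(x : E)⁻¹, h2⟩ * x := by
    ext
    simp [h0]
  rw [h3]
  exact J.mul_mem_left _ hxJ

/-- The residue field. -/
abbrev RF : Type := OR E ⧸ MI E

instance RF_isDomain : IsDomain (RF E) := Ideal.Quotient.isDomain (MI E)

/-- The residue map. -/
def res : OR E →+* RF E := Ideal.Quotient.mk (MI E)

variable {E}

theorem res_surjective : Function.Surjective (res E) := Ideal.Quotient.mk_surjective

theorem res_eq_zero_iff {x : OR E} : res E x = 0 ↔ ‖(x : E)‖ < 1 := by
  rw [res, Ideal.Quotient.eq_zero_iff_mem, mem_MI]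

theorem res_eq_iff {x y : OR E} : res E x = res E y ↔ ‖(x : E) - y‖ < 1 := by
  rw [← sub_eq_zero, ← map_sub, res_eq_zero_iff]
  rfl

theorem charP_RF {q : ℕ} (hq : q.Prime) (h : ‖(q : E)‖ < 1) : CharP (RF E) q := by
  rw [CharP.charP_iff_prime_eq_zero hq, ← map_natCast (res E), res_eq_zero_iff]
  exact h

/-- Roots of unity of order prime to the residue characteristic are determined by their residues -/
theorem eq_of_norm_sub_lt_one {m : ℕ} (hm : ‖(m : E)‖ = 1) {x y : E} (hx : x ^ m = 1)
    (hy : y ^ m = 1) (h : ‖x - y‖ < 1) : x = y := by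
  have hm0 : m ≠ 0 := by
    rintro rfl
    simp at hm
  have hny : ‖y‖ = 1 := by
    have h1 := congrArg norm hy
    rw [norm_pow, norm_one] at h1
    exact (pow_eq_one_iff_of_nonneg (norm_nonneg _) hm0).mp h1
  have hy0 : y ≠ 0 := by rw [← norm_ne_zero_iff, hny]; exact one_ne_zero
  -- reduce to `y = 1`
  set u := x / y with hu
  have hu1 : u ^ m = 1 := by rw [hu, div_pow, hx, hy, div_one]
  have hu2 : ‖u - 1‖ < 1 := by
    have : u - 1 = (x - y) / y := by rw [hu]; field_simp
    rw [this, norm_div, hny, div_one]; exact h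
  have hun : ‖u‖ = 1 := norm_eq_one_of_norm_sub_one_lt hu2
  -- `∑_{i<m} u^i ≡ m`
  have hgeom : (∑ i ∈ Finset.range m, u ^ i) * (u - 1) = 0 := by
    rw [geom_sum_mul, hu1, sub_self]
  have hsum : ‖∑ i ∈ Finset.range m, u ^ i‖ = 1 := by
    have h2 : ‖(∑ i ∈ Finset.range m, u ^ i) - m‖ < 1 := by
      have h3 : (∑ i ∈ Finset.range m, u ^ i) - m = ∑ i ∈ Finset.range m, (u ^ i - 1) := by
        rw [Finset.sum_sub_distrib]
        simp
      rw [h3]
      refine (IsUltrametricDist.norm_sum_le_of_forall_le_of_nonneg (C := ‖u - 1‖)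
        (norm_nonneg _) ?_).trans_lt hu2
      intro i _
      rw [← geom_sum_mul, norm_mul]
      refine mul_le_of_le_one_left (norm_nonneg _) ?_
      refine IsUltrametricDist.norm_sum_le_of_forall_le_of_nonneg zero_le_one ?_
      intro j _
      rw [norm_pow, hun, one_pow]
    rw [← hm]
    exact norm_eq_of_norm_sub_lt (by rw [hm]; exact h2)
  have h4 : u - 1 = 0 := by
    rcases mul_eq_zero.mp hgeom with h5 | h5
    · rw [h5, norm_zero] at hsum
      exact absurd hsum zero_ne_one
    · exact h5
  have h5 : u = 1 := sub_eq_zero.mp h4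
  rw [hu, div_eq_one_iff_eq hy0] at h5
  exact h5

end General

section Padic

variable (q : ℕ) [Fact q.Prime]

theorem norm_q_lt_one : ‖((q : ℕ) : PadicAlgCl q)‖ < 1 := norm_natCast_q_lt_one q (PadicAlgCl q)

theorem norm_natCast_eq_one {m : ℕ} (hm : m.Coprime q) : ‖(m : PadicAlgCl q)‖ = 1 := by
  rw [← map_natCast (algebraMap ℚ_[q] (PadicAlgCl q)), norm_algebraMap',
    Padic.norm_natCast_eq_one_iff]
  exact hm.symm

instance charP_RF_padic : CharP (RF (PadicAlgCl q)) q :=
  charP_RF (Fact.out : q.Prime) (norm_q_lt_one q)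

variable {q}
variable (K : IntermediateField ℚ_[q] (PadicAlgCl q))

/-- The residue field of `K`, inside the residue field of `PadicAlgCl q`. -/
noncomputable def resField : Subring (RF (PadicAlgCl q)) :=
  (K.toSubring.comap (OR (PadicAlgCl q)).subtype).map (res (PadicAlgCl q))

variable {K} in
theorem mem_resField {c : RF (PadicAlgCl q)} :
    c ∈ resField K ↔ ∃ x : OR (PadicAlgCl q), (x : PadicAlgCl q) ∈ K ∧ res _ x = c := Iff.rfl

variable [FiniteDimensional ℚ_[q] K]

theorem finite_resField : Finite (resField K) := by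
  have := properSpace q K
  have hcpt : IsCompact (Metric.closedBall (0 : K) 1) := isCompact_closedBall 0 1
  obtain ⟨t, ht1, ht2, ht3⟩ := hcpt.finite_cover_balls (e := 1) one_pos
  have hrep : ∀ c : resField K, ∃ x : K, ∃ h : ‖(x : PadicAlgCl q)‖ ≤ 1,
      res _ (⟨x, h⟩ : OR (PadicAlgCl q)) = (c : RF (PadicAlgCl q)) := by
    rintro ⟨c, x, hx, rfl⟩
    exact ⟨⟨x, hx⟩, x.2, rfl⟩
  choose r hr1 hr2 using hrep
  have hball : ∀ c, ∃ y : t, (r c : K) ∈ Metric.ball (y : K) 1 := by
    intro c
    have : (r c : K) ∈ Metric.closedBall (0 : K) 1 := by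
      rw [mem_closedBall_zero_iff]; exact hr1 c
    have := ht3 this
    simp only [Set.mem_iUnion] at this
    obtain ⟨y, hy, h⟩ := this
    exact ⟨⟨y, hy⟩, h⟩
  choose i hi using hball
  have hinj : Function.Injective i := by
    intro c c' hcc
    apply Subtype.ext
    rw [← hr2 c, ← hr2 c', res_eq_iff]
    have e1 := hi c
    have e2 := hi c'
    rw [hcc] at e1
    rw [Metric.mem_ball, dist_eq_norm] at e1 e2
    have e3 : ((r c : K) : PadicAlgCl q) - (r c' : K) =
        (((r c : K) - i c') - ((r c' : K) - i c') : K) := by push_cast; ring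
    change ‖((r c : K) : PadicAlgCl q) - (r c' : K)‖ < 1
    rw [e3]
    change ‖(((r c : K) - i c') - ((r c' : K) - i c') : K)‖ < 1
    rw [sub_eq_add_neg]
    refine (IsUltrametricDist.norm_add_le_max _ _).trans_lt (max_lt e1 ?_)
    rw [norm_neg]; exact e2
  have : Finite t := ht2
  exact Finite.of_injective i hinj

/-- The cardinality of the residue field. -/
noncomputable def resCard : ℕ := Nat.card (resField K)

theorem resCard_eq : ∃ f : ℕ, 0 < f ∧ resCard K = q ^ f := by
  classical
  have := finite_resField K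
  have hft : Fintype (resField K) := Fintype.ofFinite _
  have hchar : CharP (resField K) q := by
    have h1 : Function.Injective (resField K).subtype := Subtype.val_injective
    exact (RingHom.charP_iff (resField K).subtype h1 q).mpr inferInstance
  let fld : Field (resField K) := Fintype.fieldOfDomain (resField K)
  obtain ⟨n, _, hn⟩ := FiniteField.card (resField K) q
  refine ⟨n, n.2, ?_⟩
  rw [resCard, Nat.card_eq_fintype_card, hn]

theorem pow_resCard {c : RF (PadicAlgCl q)} (hc : c ∈ resField K) : c ^ resCard K = c := by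
  classical
  have := finite_resField K
  have hft : Fintype (resField K) := Fintype.ofFinite _
  let fld : Field (resField K) := Fintype.fieldOfDomain (resField K)
  have h1 := FiniteField.pow_card (⟨c, hc⟩ : resField K)
  rw [resCard, Nat.card_eq_fintype_card]
  exact congrArg Subtype.val h1

theorem mem_resField_of_pow {c : RF (PadicAlgCl q)} (hc : c ^ resCard K = c) :
    c ∈ resField K := by
  classical
  have := finite_resField K
  have hft : Fintype (resField K) := Fintype.ofFinite _
  have hq2 : 1 < resCard K := by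
    rw [resCard, Nat.card_eq_fintype_card]
    exact Fintype.one_lt_card
  -- the polynomial `X ^ Q - X`
  let P : Polynomial (RF (PadicAlgCl q)) := Polynomial.X ^ resCard K - Polynomial.X
  have hP : P ≠ 0 := by
    intro h0
    have h1 := congrArg (fun R => Polynomial.coeff R (resCard K)) h0
    simp only [P, Polynomial.coeff_sub, Polynomial.coeff_X_pow, Polynomial.coeff_X,
      Polynomial.coeff_zero, if_true] at h1
    rw [if_neg hq2.ne] at h1
    simp at h1
  have hdeg : P.natDegree ≤ resCard K := by
    refine (Polynomial.natDegree_sub_le _ _).trans ?_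
    rw [Polynomial.natDegree_X_pow]
    exact max_le le_rfl (Polynomial.natDegree_X_le.trans hq2.le)
  let s : Finset (RF (PadicAlgCl q)) := Finset.univ.image (fun x : resField K => (x : RF _))
  have hs : s.card = resCard K := by
    rw [Finset.card_image_of_injective _ Subtype.val_injective, Finset.card_univ, resCard,
      Nat.card_eq_fintype_card]
  have hroot : ∀ x : RF (PadicAlgCl q), x ^ resCard K = x → x ∈ P.roots.toFinset := by
    intro x hx
    rw [Multiset.mem_toFinset, Polynomial.mem_roots hP]
    simp [P, hx]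
  have hsub : s ⊆ P.roots.toFinset := by
    intro x hx
    rw [Finset.mem_image] at hx
    obtain ⟨y, _, rfl⟩ := hx
    exact hroot _ (pow_resCard K y.2)
  have heq : s = P.roots.toFinset := by
    apply Finset.eq_of_subset_of_card_le hsub
    rw [hs]
    exact (Multiset.toFinset_card_le _).trans ((Polynomial.card_roots' P).trans hdeg)
  have h2 := hroot c hc
  rw [← heq, Finset.mem_image] at h2
  obtain ⟨y, _, rfl⟩ := h2
  exact y.2

end Padic

end Fermat.Agent.CFT.Unram
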